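import Fermat.Agent.ML.At2.N1.Main
import Fermat.Agent.ML.At2.P5.Four
import Fermat.Agent.ML.Main.Spec1
import Fermat.Agent.ML.Low.Main.NonEis
import Fermat.Agent.ML.Low.Lower
import Fermat.Agent.RIB.Up.Vanish

/-!
# ML / AT-2 : assembly of `Type2Stmt`

* `ws_four_three` : `p = 3` : `W(2M) = 0 ⟹ W(4M) = 0` (from `(N1) = sc_unip`; no hypothesis on `rbar0` at `2`);
* `ws_four` : `p = 3`, or `p ≠ 3` and `rbar0` unramified at `2` : `W(2M) = 0 ⟹ W(4M) = 0`;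
* `Lower2Stmt` : the ONE remaining contract of AT-2 : Mazur's principle at `2`, `W(M) = 0 ⟹ W(2M) = 0`
  (`M` odd squarefree, `rbar0` unramified at `2`) `= (N3)` for `p = 3`, KEY at `18 L''` + projectors for `p = 5`;
* `type2Stmt_of : Lower2Stmt → Type2Stmt`.
-/

set_option autoImplicit false
set_option linter.unusedSectionVars false

noncomputable section

open AlgebraicCurve ModularCurve

namespace Fermat.Agent.ML.At2

open Fermat.Agent.RIB Fermat.Agent.ML.Low Fermat.Agent.ML.ESide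

local notation "Qbar" => AlgebraicClosure ℚ
local notation "GQ" => (AlgebraicClosure ℚ ≃ₐ[ℚ] AlgebraicClosure ℚ)
local notation "M₂" => Matrix (Fin 2) (Fin 2)

variable {p : ℕ} [Fact p.Prime] {T : Finset ℕ} {θ : ℕ → ℤ} {rbar0 : GQ →* M₂ (ZMod p)}

/-- `p = 3` : `W(2M) = 0 ⟹ W(4M) = 0`. -/
theorem ws_four_three (C : MCtx p T θ rbar0) (hp3 : p = 3) {M : ℕ} [NeZero M] (hM : Odd M)
    (hlev : ∀ r : ℕ, r.Prime → r ∣ M * 2 * 2 * p → r ∈ T)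
    (h : WS (M * 2) p (↑T : Set ℕ) θ = ⊥) : WS (M * 2 * 2) p (↑T : Set ℕ) θ = ⊥ := by
  subst hp3
  obtain ⟨ℓ₀, hℓ₀, hℓ₀T, hne⟩ := C.exists_nonEis T
  have h2 : ¬ 2 ∣ M := fun hd => (Nat.not_even_iff_odd.2 hM) (even_iff_two_dvd.2 hd)
  have hb := sc_unip M h2 (S := (↑T : Set ℕ)) (θ := θ)
    (fun r hr hrT hd => hrT (Finset.mem_coe.2 (hlev r hr hd))) ⟨ℓ₀, hℓ₀⟩
    (fun hmem => hℓ₀T (Finset.mem_coe.1 hmem)) hne (thetaPart_eq_bot_of_WS_eq_bot h)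
  exact eq_bot_iff.2 (hb ▸ WS_le_thetaPart)

/-- `W(2M) = 0 ⟹ W(4M) = 0`, if `p = 3` or `rbar0` is unramified at `2`. -/
theorem ws_four (C : MCtx p T θ rbar0) (hcase : p = 3 ∨ ¬ Ram rbar0 2) {M : ℕ} [NeZero M]
    (hM : Odd M) (hlev : ∀ r : ℕ, r.Prime → r ∣ M * 2 * 2 * p → r ∈ T)
    (h : WS (M * 2) p (↑T : Set ℕ) θ = ⊥) : WS (M * 2 * 2) p (↑T : Set ℕ) θ = ⊥ := by
  by_cases hp3 : p = 3
  · exact ws_four_three C hp3 hM hlev h
  · exact ws_four_eq_bot C hp3 hM (hcase.resolve_left hp3) hlev h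

/-- **the remaining contract of AT-2** : Mazur's principle at `2` at the non rigid level `2M`. -/
def Lower2Stmt : Prop :=
  ∀ (p : ℕ) [Fact p.Prime], (p = 3 ∨ p = 5) → ∀ (T : Finset ℕ) (θ : ℕ → ℤ)
    (rbar0 : GQ →* M₂ (ZMod p)), MCtx p T θ rbar0 → ¬ Ram rbar0 2 →
    ∀ (M : ℕ) [NeZero M], Odd M → Squarefree M → (∀ r : ℕ, r.Prime → r ∣ M * 2 * p → r ∈ T) →
    WS M p (↑T : Set ℕ) θ = ⊥ → WS (M * 2) p (↑T : Set ℕ) θ = ⊥

/-- **AT-2** from Mazur's principle at `2`. -/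
theorem type2Stmt_of (hL2 : Lower2Stmt) : Type2Stmt := by
  intro W p _ H T _ b C L₀ _ B M hM
  obtain ⟨M', hM', hodd, hsq⟩ := B.shape
  have hMM : M' = M := by omega
  subst hMM
  have hM0 : M' ≠ 0 := by
    rintro rfl
    exact NeZero.ne L₀ (by rw [hM]; rfl)
  have : NeZero M' := ⟨hM0⟩
  have hocc : WS (M' * 2 * 2) p (↑T : Set ℕ) W.apOfModel ≠ ⊥ := by
    intro h0
    exact B.occ ((WS_eq_bot_congr (show L₀ = M' * 2 * 2 by rw [hM]; ring) p _ _).2 h0)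
  have hlev : ∀ r : ℕ, r.Prime → r ∣ M' * 2 * 2 * p → r ∈ T := fun r hr hd =>
    B.levT r hr (by rw [hM]; rwa [show M' * 4 * p = M' * 2 * 2 * p by ring])
  have hlev2 : ∀ r : ℕ, r.Prime → r ∣ M' * 2 * p → r ∈ T := fun r hr hd =>
    hlev r hr (hd.trans ⟨2, by ring⟩)
  refine ⟨fun hram _ _ h0 => ?_, fun _ hp3 _ h0 => ?_⟩
  · exact hocc (ws_four C (Or.inr hram) hodd hlev
      (hL2 p H.hp35 T _ _ C hram M' hodd hsq hlev2 h0))
  · exact hocc (ws_four C (Or.inl hp3) hodd hlev h0)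

end Fermat.Agent.ML.At2
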