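import Fermat.Agent.ML.At2.PrimeR
import Fermat.Agent.S40.CycRam

/-!
# ML / At2 / PrimeR5 : a prime `r ≡ 2 mod 3` with `θ r ≢ 0 mod p`, for `p ≠ 3`

Companion of `ML/At2/PrimeR.lean` (which treats `p = 3` through `MCtx.irr2`).   For `p ≠ 3` the residual representation is unipotent on the
inertia groups at `3` (`MCtx.unipI`), while the cyclotomic character modulo `3` is ramified at `3`:

* `trace_eq_two_of_sq` : `(X - 1)² = 0` over a field  ⟹  `tr X = 2`;
* `trace_pow_odd_eq_zero` : `tr Y = 0`  ⟹  `tr (Y ^ (2 k + 1)) = 0`;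
* `MCtx.exists_chi3_ne_one_trace_two` : `p ≠ 3` : some `g` has `χ₃(g) ≠ 1`, `tr rbar0 g = 2`;
* `MCtx.exists_prime_two_mod_three'` : `p ≠ 3` : for every finite set `B` there is a prime `r ∉ T ∪ B`, `r % 3 = 2`, `¬ p ∣ θ r`;
* `MCtx.exists_prime_two_mod_three_all` : the uniform statement (`p = 3 ∨ p = 5`).
-/

set_option autoImplicit false

noncomputable section

open ExtCitation

namespace Fermat.Agent.ML

open Fermat.Agent.RIB Fermat.Agent.S56

local notation "Qbar" => AlgebraicClosure ℚ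
local notation "GQ" => (AlgebraicClosure ℚ ≃ₐ[ℚ] AlgebraicClosure ℚ)
local notation "M₂" => Matrix (Fin 2) (Fin 2)

/-- a `2 × 2` matrix over a field with `(X - 1)² = 0` has trace `2`. -/
theorem trace_eq_two_of_sq {K : Type*} [Field K] (X : M₂ K) (h : (X - 1) * (X - 1) = 0) :
    X.trace = 2 := by
  have h00 := congrFun (congrFun h 0) 0
  have h01 := congrFun (congrFun h 0) 1
  have h10 := congrFun (congrFun h 1) 0
  have h11 := congrFun (congrFun h 1) 1
  simp only [Matrix.mul_apply, Fin.sum_univ_two, Matrix.sub_apply, Matrix.one_apply_eq,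
    Matrix.one_apply_ne, ne_eq, zero_ne_one, one_ne_zero, not_false_eq_true, sub_zero,
    Matrix.zero_apply] at h00 h01 h10 h11
  rw [Matrix.trace_fin_two]
  set a := X 0 0 - 1 with ha
  set d := X 1 1 - 1 with hd
  set b := X 0 1
  set c := X 1 0
  have hs : (a + d) ^ 3 = 0 := by
    linear_combination (a + 3 * d) * h00 + (d + 3 * a) * h11 - 2 * c * h01 - 2 * b * h10
  have hs0 : a + d = 0 := by simpa using hs
  linear_combination hs0

/-- Cayley-Hamilton for trace `0`. -/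
theorem mul_self_of_trace_eq_zero {R : Type*} [CommRing R] (Y : M₂ R) (h0 : Y.trace = 0) :
    Y * Y = (-Y.det) • (1 : M₂ R) := by
  rw [Matrix.trace_fin_two] at h0
  have h11 : Y 1 1 = -Y 0 0 := by linear_combination h0
  ext i j
  fin_cases i <;> fin_cases j <;>
    simp only [Fin.zero_eta, Fin.mk_one, Matrix.mul_apply, Fin.sum_univ_two, h11,
      Matrix.det_fin_two, Matrix.smul_apply, smul_eq_mul,
      Matrix.one_apply_eq, Matrix.one_apply_ne, ne_eq, zero_ne_one, one_ne_zero,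
      not_false_eq_true] <;> ring

/-- odd powers of a matrix of trace `0` have trace `0`. -/
theorem trace_pow_odd_eq_zero {R : Type*} [CommRing R] (Y : M₂ R) (h0 : Y.trace = 0) (k : ℕ) :
    (Y ^ (2 * k + 1)).trace = 0 := by
  have h1 : Y ^ (2 * k) = ((-Y.det) ^ k) • (1 : M₂ R) := by
    rw [pow_mul, pow_two, mul_self_of_trace_eq_zero Y h0, smul_pow, one_pow]
  rw [pow_succ, h1, smul_mul_assoc, one_mul, Matrix.trace_smul, h0, smul_zero]

theorem units_zmod_three_sq (u : (ZMod 3)ˣ) : u ^ 2 = 1 := by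
  revert u; decide

variable {p : ℕ} [Fact p.Prime] {T : Finset ℕ} {θ : ℕ → ℤ} {rbar0 : GQ →* M₂ (ZMod p)}

/-- some element acts non trivially on the cube roots of unity and has trace `2` (an element of an inertia group at `3`). -/
theorem MCtx.exists_chi3_ne_one_trace_two (C : MCtx p T θ rbar0) (hp3 : p ≠ 3) :
    ∃ g : GQ, GAL.cycloChar 3 g ≠ 1 ∧ (rbar0 g).trace = 2 := by
  obtain ⟨A, hA⟩ := S54.exists_liesOverPrime Nat.prime_three
  obtain ⟨τ, hτ, h1⟩ := S40.exists_inertia_cycloChar_ne_one Nat.prime_three (by norm_num) A hA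
  exact ⟨τ, h1, trace_eq_two_of_sq _ (C.unipI 3 Nat.prime_three (Ne.symm hp3) A hA τ hτ τ hτ)⟩

/-- **a prime `r ≡ 2 mod 3`, outside any finite set, with `θ r ≢ 0 mod p`   (`p ≠ 3`).** -/
theorem MCtx.exists_prime_two_mod_three' (C : MCtx p T θ rbar0) (hp3 : p ≠ 3) (B : Finset ℕ) :
    ∃ r : ℕ, r.Prime ∧ r ∉ T ∧ r ∉ B ∧ r % 3 = 2 ∧ ¬ (p : ℤ) ∣ θ r := by
  have : Fact (Nat.Prime 3) := ⟨Nat.prime_three⟩
  obtain ⟨g, hg1, hg2⟩ := C.exists_chi3_ne_one_trace_two hp3
  obtain ⟨L, hL, hLr⟩ := C.cont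
  obtain ⟨L', hL', hLc⟩ := GAL.cycloChar_finiteLevel 3
  have := hL
  have := hL'
  obtain ⟨r, A, τ, a, -, hr, hrT, hA, hτ, -, h1, -⟩ :=
    Fermat.Agent.Cheb.preludeSpec (L ⊔ L') (IntermediateField.finiteDimensional_sup L L') g
      (T ∪ B ∪ {3})
  rw [Finset.mem_union, Finset.mem_union, not_or, not_or, Finset.mem_singleton] at hrT
  obtain ⟨⟨hrT, hrB⟩, hr3⟩ := hrT
  have hfix : ∀ x ∈ L ⊔ L', (g⁻¹ * τ ^ a) x = x := fun x hx => by
    rw [AlgEquiv.mul_apply, h1 x hx]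
    exact AlgEquiv.symm_apply_apply g x
  have e : rbar0 τ ^ a = rbar0 g := by
    have h2 : rbar0 (g⁻¹ * τ ^ a) = 1 := hLr _ fun x hx => hfix x ((le_sup_left : L ≤ L ⊔ L') hx)
    calc rbar0 τ ^ a = rbar0 (g * (g⁻¹ * τ ^ a)) := by rw [mul_inv_cancel_left, map_pow]
      _ = rbar0 g := by rw [map_mul, h2, mul_one]
  have e' : GAL.cycloChar 3 τ ^ a = GAL.cycloChar 3 g := by
    have h2 : GAL.cycloChar 3 (g⁻¹ * τ ^ a) = 1 :=
      hLc _ fun x hx => hfix x ((le_sup_right : L' ≤ L ⊔ L') hx)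
    calc GAL.cycloChar 3 τ ^ a = GAL.cycloChar 3 (g * (g⁻¹ * τ ^ a)) := by
          rw [mul_inv_cancel_left, map_pow]
      _ = GAL.cycloChar 3 g := by rw [map_mul, h2, mul_one]
  -- `a` is odd
  have ha : a % 2 = 1 := by
    rcases Nat.mod_two_eq_zero_or_one a with h | h
    · exfalso
      apply hg1
      rw [← e', pow_eq_pow_mod a (units_zmod_three_sq _), h, pow_zero]
    · exact h
  have hχ : GAL.cycloChar 3 τ ≠ 1 := by
    intro h
    apply hg1
    rw [← e', h, one_pow]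
  obtain ⟨e1, -⟩ := C.frob r hr hrT A hA τ hτ
  refine ⟨r, hr, hrT, hrB, ?_, ?_⟩
  · have h3 : ((GAL.cycloChar 3 τ : (ZMod 3)ˣ) : ZMod 3) = (r : ZMod 3) :=
      GAL.cycloChar_of_isFrobeniusAt hr hr3 hA hτ
    have h4 : r % 3 ≠ 1 := by
      intro h
      apply hχ
      apply Units.ext
      rw [h3, Units.val_one]
      have : ((r : ℕ) : ZMod 3) = ((1 : ℕ) : ZMod 3) :=
        (ZMod.natCast_eq_natCast_iff' r 1 3).2 (by rw [h])
      simpa using this
    have h5 : r % 3 ≠ 0 := by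
      intro h
      exact hr3 ((Nat.prime_dvd_prime_iff_eq Nat.prime_three hr).1 (Nat.dvd_of_mod_eq_zero h)).symm
    omega
  · intro hdvd
    have h0 : (rbar0 τ).trace = 0 := by
      rw [e1]
      exact (ZMod.intCast_zmod_eq_zero_iff_dvd (θ r) p).2 hdvd
    have h6 : a = 2 * (a / 2) + 1 := by omega
    have h7 : (rbar0 g).trace = 0 := by
      rw [← e, h6]
      exact trace_pow_odd_eq_zero _ h0 _
    rw [hg2] at h7
    exact two_ne_zero_zmod C.hp2 h7

/-- the uniform statement. -/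
theorem MCtx.exists_prime_two_mod_three_all (C : MCtx p T θ rbar0) (hp : p = 3 ∨ p = 5)
    (B : Finset ℕ) : ∃ r : ℕ, r.Prime ∧ r ∉ T ∧ r ∉ B ∧ r % 3 = 2 ∧ ¬ (p : ℤ) ∣ θ r := by
  rcases hp with h | h
  · obtain ⟨r, h1, h2, h3, h4, h5⟩ := C.exists_prime_two_mod_three h B
    refine ⟨r, h1, h2, h3, h4, ?_⟩
    rw [h]
    exact_mod_cast h5
  · exact C.exists_prime_two_mod_three' (by omega) B

end Fermat.Agent.ML
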