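import Fermat.Agent.ML.At2.Loc.Alg
import Fermat.Agent.ML.Rho.TameK
import Fermat.Agent.ML.Raise.RelState
import Fermat.Agent.ML.Gen.OfRho
import Fermat.Agent.ML.Main.Cell
import Fermat.Agent.S56.Asm.Places

/-!
# ML / AT-2 / Cell2 : [CELL-2]  the prime `2` in every step of layer 2

All the levels of layer 2 are divisible by `4`, so at a new level forms of the WRONG type at `2` reappear.  `R` a ring with
`π0 : R →+* ZMod p` (`R` local, `ker π0` nilpotent), `ρ : G_ℚ → M₂(R)`, `RhoAct ρ Φ` on `V`.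
`φ` a Frobenius at `primeLocalPlace twoP`, `τ` a generator of the image of the inertia group (`Gen2 ρ φ τ`),
`z₂ + 3 = tr ρ(τ) + 1`, `t₂ = tr ρ(φ)`.

* (A) `rbar0` ramified at `2` : factor `z₂ + 3`; `Gen2.unip_out`, `Gen2.locUnip`; value `3` (`Gen2.w_smul`).
* (B1) unramified, not mixed : `Gen2.eq_one`.
* (B2) mixed, `2` not raised : factor `(z₂ + 3)(9 - t₂²)`; `Gen2.ur_out`, `Gen2.locUr`; variable `u₂ = t₂ - a`; value `3 (9 - a²)`
  (`Gen2.ur_value`); `Gen2.strict_ur`.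
* (C) `2` raised, sign `ε` : `Gen2.exists_st` : factor `(z₂ + 3)² b`, variable `b`, value `9 p`.
-/

set_option autoImplicit false
set_option linter.unusedSectionVars false
set_option linter.unusedVariables false

noncomputable section

namespace Fermat.Agent.ML.At2

open Matrix Fermat.Agent.RIB Fermat.Agent.ML Fermat.Agent.S56 ExtCitation
open CFT (decomp)

local notation "Qbar" => AlgebraicClosure ℚ
local notation "M₂" => Matrix (Fin 2) (Fin 2)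

/-! ### matrix algebra -/

section Alg

variable {R : Type*} [CommRing R]

/-- the matrix with columns `e`, `X e`. -/
def colMat (X : M₂ R) (e : Fin 2 → R) : M₂ R :=
  !![e 0, X 0 0 * e 0 + X 0 1 * e 1; e 1, X 1 0 * e 0 + X 1 1 * e 1]

theorem mul_colMat (X : M₂ R) (e : Fin 2 → R) :
    X * colMat X e = colMat X e * !![0, -X.det; 1, X.trace] := by
  ext i j
  fin_cases i <;> fin_cases j <;>
    simp [colMat, Matrix.mul_apply, Fin.sum_univ_two, Matrix.det_fin_two, Matrix.trace_fin_two] <;>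
    ring

theorem colMat_map {S : Type*} [CommRing S] (f : R →+* S) (X : M₂ R) (e : Fin 2 → R) :
    (colMat X e).map f = colMat (X.map f) (fun i => f (e i)) := by
  ext i j
  fin_cases i <;> fin_cases j <;> simp [colMat]

theorem exists_cyclic {k : Type*} [Field k] (X : M₂ k) (hns : ∀ c : k, X ≠ c • (1 : M₂ k)) :
    ∃ e : Fin 2 → ℤ, (colMat X (fun i => ((e i : ℤ) : k))).det ≠ 0 := by
  by_contra hcon0
  have hcon : ∀ e : Fin 2 → ℤ, (colMat X (fun i => ((e i : ℤ) : k))).det = 0 :=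
    fun e => by_contra fun h => hcon0 ⟨e, h⟩
  have h1 := hcon ![1, 0]
  have h2 := hcon ![0, 1]
  have h3 := hcon ![1, 1]
  simp [colMat, Matrix.det_fin_two] at h1 h2 h3
  have h4 : X 1 1 = X 0 0 := by
    rw [h1, h2] at h3
    linear_combination h3
  refine hns (X 0 0) ?_
  ext i j
  fin_cases i <;> fin_cases j
  · simp
  · simpa using h2
  · simpa using h1
  · simpa using h4

theorem entries_mul_mem (J : Ideal R) (P N : M₂ R) (hN : ∀ i k, N i k ∈ J) (i l : Fin 2) :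
    (P * N) i l ∈ J := by
  rw [Matrix.mul_apply]
  exact J.sum_mem fun k _ => J.mul_mem_left _ (hN k l)

/-- `β • (X Y) = 0` if `β • X' = 0`-type congruences hold. -/
theorem smul_mul_congr {β : R} {X X₀ Y Y₀ : M₂ R} (hX : β • X = β • X₀) (hY : β • Y = β • Y₀) :
    β • (X * Y) = β • (X₀ * Y₀) := by
  rw [← smul_mul_assoc, hX, smul_mul_assoc, ← mul_smul_comm, hY, mul_smul_comm]

end Alg

/-! ### conjugation of places -/

section Conj

variable {R : Type*} [CommRing R] (ρ : GQ →* M₂ R)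

theorem rho_conj (g s : GQ) : ρ s = ρ g * ρ (g⁻¹ * s * g) * ρ g⁻¹ := by
  rw [← map_mul, ← map_mul]
  congr 1
  group

theorem rho_conj_sub (g s : GQ) (c : R) :
    ρ s - c • (1 : M₂ R) = ρ g * (ρ (g⁻¹ * s * g) - c • (1 : M₂ R)) * ρ g⁻¹ := by
  have h1 : ρ g * ρ g⁻¹ = 1 := by rw [← map_mul, mul_inv_cancel, map_one]
  rw [mul_sub, sub_mul, ← rho_conj, mul_smul_comm, mul_one, smul_mul_assoc, h1]

theorem smul_conj_eq_zero {β c₁ c₂ : R} (g s₁ s₂ : GQ)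
    (h : β • ((ρ (g⁻¹ * s₁ * g) - c₁ • (1 : M₂ R)) * (ρ (g⁻¹ * s₂ * g) - c₂ • (1 : M₂ R))) = 0) :
    β • ((ρ s₁ - c₁ • (1 : M₂ R)) * (ρ s₂ - c₂ • (1 : M₂ R))) = 0 := by
  have h1 : ρ g⁻¹ * ρ g = 1 := by rw [← map_mul, inv_mul_cancel, map_one]
  rw [rho_conj_sub ρ g s₁, rho_conj_sub ρ g s₂]
  have e : ρ g * (ρ (g⁻¹ * s₁ * g) - c₁ • (1 : M₂ R)) * ρ g⁻¹ *
      (ρ g * (ρ (g⁻¹ * s₂ * g) - c₂ • (1 : M₂ R)) * ρ g⁻¹) =
      ρ g * ((ρ (g⁻¹ * s₁ * g) - c₁ • (1 : M₂ R)) * (ρ (g⁻¹ * s₂ * g) - c₂ • (1 : M₂ R))) *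
        ρ g⁻¹ := by
    calc _ = ρ g * (ρ (g⁻¹ * s₁ * g) - c₁ • (1 : M₂ R)) * (ρ g⁻¹ * ρ g) *
        (ρ (g⁻¹ * s₂ * g) - c₂ • (1 : M₂ R)) * ρ g⁻¹ := by simp only [mul_assoc]
      _ = _ := by rw [h1, mul_one]; simp only [mul_assoc]
  rw [e, ← smul_mul_assoc, ← mul_smul_comm, h, mul_zero, zero_mul]

theorem smul_conj_eq_zero₁ {β : R} (g s : GQ) (h : β • (ρ (g⁻¹ * s * g) - 1) = 0) :
    β • (ρ s - 1) = 0 := by
  have := rho_conj_sub ρ g s 1
  rw [one_smul] at this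
  rw [this, ← smul_mul_assoc, ← mul_smul_comm, h, mul_zero, zero_mul]

end Conj

/-! ### generators at `2` -/

/-- a Frobenius and a generator of the image of inertia at `2`. -/
structure Gen2 {R : Type} [CommRing R] (ρ : GQ →* M₂ R) (φ τ : GQ) : Prop where
  frob : (primeLocalPlace twoP).IsFrobeniusAt φ 2
  mem : τ ∈ inert twoP
  gen : ∀ σ ∈ inert twoP, ∃ n : ℕ, ρ σ = ρ τ ^ n
  rel : ρ φ * ρ τ = ρ τ * ρ τ * ρ φ
  detT : (ρ τ).det = 1
  detF : (ρ φ).det = 2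
  two : IsUnit (2 : R)
  cont : GaloisFactorsThroughFiniteLevel ρ
  tors : ∃ N : ℕ, Nat.Coprime N 2 ∧ ∀ σ ∈ inert twoP, ρ σ ^ N = 1

section Ex

variable {p : ℕ} [Fact p.Prime] {T : Finset ℕ} {θ : ℕ → ℤ} {rbar0 : GQ →* M₂ (ZMod p)}
  {R : Type} [CommRing R] {π0 : R →+* ZMod p} {ρ : GQ →* M₂ R}

theorem exists_gen2 (C : MCtx p T θ rbar0) (hcont : GaloisFactorsThroughFiniteLevel ρ)
    (hlift : ∀ σ, (ρ σ).map π0 = rbar0 σ) (hloc : ∀ a : R, π0 a ≠ 0 → IsUnit a)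
    {N : ℕ} (hnil : RingHom.ker π0 ^ N = ⊥)
    (hdetI : ∀ σ ∈ inert twoP, (ρ σ).det = 1) {φ : GQ}
    (hφ : (primeLocalPlace twoP).IsFrobeniusAt φ 2) (hdetF : (ρ φ).det = 2) :
    ∃ τ : GQ, Gen2 ρ φ τ := by
  have hp : p.Prime := Fact.out
  have h2p : (2 : ℕ) ≠ p := fun h => C.hp2 h.symm
  have hA : (primeLocalPlace twoP).LiesOverPrime 2 := liesOverPrime_primeLocalPlace twoP
  have hpI : ((p : ℕ) : R) ∈ RingHom.ker π0 := by
    rw [RingHom.mem_ker, map_natCast, ZMod.natCast_self]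
  have hun : ∀ σ ∈ (primeLocalPlace twoP).inertiaSubgroupIn ℚ, ∀ i j,
      (ρ σ ^ (p ^ 1) - 1) i j ∈ RingHom.ker π0 := by
    intro σ hσ i j
    have h1 : rbar0 (σ ^ p) = 1 := by
      have h1 := C.unipI 2 Nat.prime_two h2p _ hA σ hσ σ hσ
      have h2 := S56.one_add_pow_of_sq_zero (rbar0 σ - 1) h1 p
      rw [add_sub_cancel] at h2
      rw [map_pow, h2, ← Nat.cast_smul_eq_nsmul (ZMod p), ZMod.natCast_self, zero_smul, add_zero]
    rw [pow_one, ← map_pow, RingHom.mem_ker, Matrix.sub_apply, map_sub]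
    have h2 : π0 (ρ (σ ^ p) i j) = rbar0 (σ ^ p) i j := by rw [← hlift]; rfl
    rw [h2, h1]
    by_cases hij : i = j
    · subst hij; simp
    · simp [Matrix.one_apply_ne hij]
  obtain ⟨τ, hτ, hgen⟩ := exists_tame_gen hp Nat.prime_two h2p hA hcont hnil hpI 1 hun
  have hrel := tame_conj hp Nat.prime_two h2p hA hcont hnil hpI 1 hun hφ hτ
  refine ⟨τ, hφ, hτ, hgen, by rw [hrel, pow_two], hdetI τ hτ, hdetF, ?_, hcont,
    p ^ (1 + N), Nat.Coprime.pow_left _ ((Nat.coprime_primes hp Nat.prime_two).2 (Ne.symm h2p)),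
    fun σ hσ => pow_inertia_eq_one hnil hpI 1 hun hσ⟩
  refine hloc _ ?_
  rw [map_ofNat]
  exact two_ne_zero_zmod C.hp2

end Ex

/-! ### the identities (A), (B1), (B2) -/

namespace Gen2

section Out

variable {R : Type} [CommRing R] {ρ : GQ →* M₂ R} {φ τ : GQ}

theorem detF_unit (D : Gen2 ρ φ τ) : IsUnit (ρ φ).det := by
  rw [D.detF]
  exact D.two

theorem exists_fac (D : Gen2 ρ φ τ) {σ : GQ} (hσ : σ ∈ inert twoP) :
    ∃ S : M₂ R, ρ σ - 1 = (ρ τ - 1) * S ∧ ρ σ - 1 = S * (ρ τ - 1) := by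
  obtain ⟨n, hn⟩ := D.gen σ hσ
  exact ⟨∑ i ∈ Finset.range n, ρ τ ^ i, by rw [hn, mul_geom_sum], by rw [hn, geom_sum_mul]⟩

theorem unip0 (D : Gen2 ρ φ τ) {σ σ' : GQ} (hσ : σ ∈ inert twoP) (hσ' : σ' ∈ inert twoP) :
    ((ρ τ).trace + 1) • ((ρ σ' - 1) * (ρ σ - 1)) = 0 := by
  obtain ⟨S, hS, -⟩ := D.exists_fac hσ
  obtain ⟨S', -, hS'⟩ := D.exists_fac hσ'
  have h0 : ((ρ τ).trace + 1) • ((ρ τ - 1) * (ρ τ - 1)) = 0 := by
    rw [Loc.N_mul_N D.detT, smul_smul, mul_comm,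
      Loc.z_mul_z_add_three D.rel D.detT D.detF_unit, zero_smul]
  rw [hS, hS']
  calc ((ρ τ).trace + 1) • (S' * (ρ τ - 1) * ((ρ τ - 1) * S))
      = S' * (((ρ τ).trace + 1) • ((ρ τ - 1) * (ρ τ - 1))) * S := by
        simp only [mul_smul_comm, smul_mul_assoc, mul_assoc]
    _ = 0 := by rw [h0, mul_zero, zero_mul]

/-- **(A)** : `(z₂ + 3) (σ' - 1)(σ - 1) = 0`, all places. -/
theorem unip_out (D : Gen2 ρ φ τ) (A : ValuationSubring Qbar) (hA : A.LiesOverPrime 2) {σ σ' : GQ}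
    (hσ : σ ∈ A.inertiaSubgroupIn ℚ) (hσ' : σ' ∈ A.inertiaSubgroupIn ℚ) :
    ((ρ τ).trace + 1) • ((ρ σ' - 1) * (ρ σ - 1)) = 0 := by
  have hA0 := liesOverPrime_primeLocalPlace twoP
  obtain ⟨g, rfl⟩ := Bridge.exists_smul_eq Nat.prime_two hA0 hA
  rw [Bridge.mem_inertia_smul_iff Nat.prime_two hA0] at hσ hσ'
  have := smul_conj_eq_zero ρ (β := (ρ τ).trace + 1) (c₁ := 1) (c₂ := 1) g σ' σ (by
    rw [one_smul (M := R) (1 : M₂ R)]
    exact D.unip0 hσ hσ')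
  rwa [one_smul (M := R) (1 : M₂ R)] at this

theorem ur0 (D : Gen2 ρ φ τ) {σ : GQ} (hσ : σ ∈ inert twoP) :
    (((ρ τ).trace + 1) * (9 - (ρ φ).trace ^ 2)) • (ρ σ - 1) = 0 := by
  obtain ⟨S, hS, -⟩ := D.exists_fac hσ
  rw [hS, ← smul_mul_assoc, mul_comm, mul_smul,
    Loc.nine_sub_smul_Np D.rel D.detT D.detF D.two, zero_mul]

/-- **(B2)** : `(z₂ + 3)(9 - t₂²) (σ - 1) = 0`, all places. -/
theorem ur_out (D : Gen2 ρ φ τ) (A : ValuationSubring Qbar) (hA : A.LiesOverPrime 2) {σ : GQ}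
    (hσ : σ ∈ A.inertiaSubgroupIn ℚ) :
    (((ρ τ).trace + 1) * (9 - (ρ φ).trace ^ 2)) • (ρ σ - 1) = 0 := by
  have hA0 := liesOverPrime_primeLocalPlace twoP
  obtain ⟨g, rfl⟩ := Bridge.exists_smul_eq Nat.prime_two hA0 hA
  rw [Bridge.mem_inertia_smul_iff Nat.prime_two hA0] at hσ
  exact smul_conj_eq_zero₁ ρ g σ (D.ur0 hσ)

/-- **(B1)** -/
theorem eq_one (D : Gen2 ρ φ τ) (h : IsUnit (ρ φ).trace ∨ IsUnit ((ρ τ).trace + 1))
    (h9 : IsUnit (9 - (ρ φ).trace ^ 2)) (A : ValuationSubring Qbar) (hA : A.LiesOverPrime 2)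
    {σ : GQ} (hσ : σ ∈ A.inertiaSubgroupIn ℚ) : ρ σ = 1 := by
  have hA0 := liesOverPrime_primeLocalPlace twoP
  obtain ⟨g, rfl⟩ := Bridge.exists_smul_eq Nat.prime_two hA0 hA
  rw [Bridge.mem_inertia_smul_iff Nat.prime_two hA0] at hσ
  obtain ⟨n, hn⟩ := D.gen _ hσ
  rw [rho_conj ρ g σ, hn, Loc.eq_one_of_isUnit D.rel D.detT D.detF D.two h h9, one_pow, mul_one,
    ← map_mul, mul_inv_cancel, map_one]

end Out

section Res

variable {p : ℕ} [Fact p.Prime] {T : Finset ℕ} {θ : ℕ → ℤ} {rbar0 : GQ →* M₂ (ZMod p)}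
  {R : Type} [CommRing R] {π0 : R →+* ZMod p} {ρ : GQ →* M₂ R} {φ τ : GQ}

theorem pi0_trace (hlift : ∀ σ, (ρ σ).map π0 = rbar0 σ) (σ : GQ) :
    π0 (ρ σ).trace = (rbar0 σ).trace := by
  rw [← hlift σ, Matrix.trace_fin_two, Matrix.trace_fin_two, map_add]
  rfl

/-- **(B1)** in terms of `rbar0`. -/
theorem eq_one_of_not_mixed (D : Gen2 ρ φ τ) (C : MCtx p T θ rbar0)
    (hlift : ∀ σ, (ρ σ).map π0 = rbar0 σ) (hloc : ∀ a : R, π0 a ≠ 0 → IsUnit a)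
    (h9 : (rbar0 φ).trace ^ 2 ≠ 9) (A : ValuationSubring Qbar) (hA : A.LiesOverPrime 2)
    {σ : GQ} (hσ : σ ∈ A.inertiaSubgroupIn ℚ) : ρ σ = 1 := by
  have h2p : (2 : ℕ) ≠ p := fun h => C.hp2 h.symm
  refine D.eq_one ?_ (hloc _ ?_) A hA hσ
  · by_cases h3 : (3 : ZMod p) = 0
    · left
      refine hloc _ ?_
      rw [pi0_trace hlift]
      intro h0
      apply h9
      rw [h0]
      linear_combination (-3 : ZMod p) * h3
    · right
      refine hloc _ ?_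
      have h1 := C.unipI 2 Nat.prime_two h2p _ (liesOverPrime_primeLocalPlace twoP) τ D.mem τ D.mem
      have h2 : IsNilpotent (rbar0 τ - 1) := ⟨2, by rw [pow_two, h1]⟩
      have h4 : (rbar0 τ - 1).trace = 0 := (Matrix.isNilpotent_trace_of_isNilpotent h2).eq_zero
      rw [Matrix.trace_sub, Matrix.trace_one, Fintype.card_fin, sub_eq_zero] at h4
      rw [map_add, map_one, pi0_trace hlift, h4]
      intro h0
      apply h3
      push_cast at h0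
      linear_combination h0
  · rw [map_sub, map_pow, pi0_trace hlift, map_ofNat]
    exact fun h0 => h9 (sub_eq_zero.1 h0).symm

end Res

end Gen2

/-! ### from identities in `M₂(R)` to the vocabulary of `Main/Cell.lean` -/

section Voc

variable {R V : Type} [CommRing R] [AddCommGroup V] [Module R V] [DistribMulAction GQ V]
  {ρ : GQ →* M₂ R} {Φ : M₂ R →ₐ[R] Module.End R V}

theorem phi_smul_of_dvd {β β' : R} (hβ : β ∣ β') {X : M₂ R} (hX : β • X = 0) (y : V) :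
    Φ X (β' • y) = 0 := by
  obtain ⟨r, rfl⟩ := hβ
  have e : Φ X ((β * r) • y) = Φ (β • X) (r • y) := by
    rw [map_smul Φ β X, LinearMap.smul_apply, ← (Φ X).map_smul, smul_smul]
  rw [e, hX, map_zero, LinearMap.zero_apply]

theorem locUr_range (H : RhoAct ρ Φ) {q : ℕ} {β β' : R} (hβ : β ∣ β')
    (h : ∀ A : ValuationSubring Qbar, A.LiesOverPrime q → ∀ σ ∈ A.inertiaSubgroupIn ℚ,
      β • (ρ σ - 1) = 0) : LocUr q (Set.range fun y : V => β' • y) := by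
  rintro A hA σ hσ _ ⟨y, rfl⟩
  have := phi_smul_of_dvd (Φ := Φ) hβ (h A hA σ hσ) y
  rw [H.phi_sub_one] at this
  exact sub_eq_zero.1 this

theorem locUnip_range (H : RhoAct ρ Φ) {q : ℕ} {β β' : R} (hβ : β ∣ β')
    (h : ∀ A : ValuationSubring Qbar, A.LiesOverPrime q → ∀ σ ∈ A.inertiaSubgroupIn ℚ,
      ∀ σ' ∈ A.inertiaSubgroupIn ℚ, β • ((ρ σ' - 1) * (ρ σ - 1)) = 0) :
    LocUnip q (Set.range fun y : V => β' • y) := by
  rintro A hA σ hσ σ' hσ' _ ⟨y, rfl⟩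
  have := phi_smul_of_dvd (Φ := Φ) hβ (h A hA σ hσ σ' hσ') y
  rw [map_mul, Module.End.mul_apply, H.phi_sub_one, H.phi_sub_one] at this
  exact sub_eq_zero.1 this

theorem locSt_range (H : RhoAct ρ Φ) {q : ℕ} {ε : ℤ} {β β' : R} (hβ : β ∣ β')
    (h : ∀ A : ValuationSubring Qbar, A.LiesOverPrime q → ∀ σ : GQ, A.IsFrobeniusAt σ q →
      ∀ ι ∈ A.inertiaSubgroupIn ℚ,
        β • ((ρ σ - ((ε : R) * q) • (1 : M₂ R)) * (ρ ι - (1 : R) • (1 : M₂ R))) = 0 ∧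
        β • ((ρ ι - (1 : R) • (1 : M₂ R)) * (ρ σ - (ε : R) • (1 : M₂ R))) = 0 ∧
        β • ((ρ σ - ((ε : R) * q) • (1 : M₂ R)) * (ρ σ - (ε : R) • (1 : M₂ R))) = 0) :
    LocSt q ε (Set.range fun y : V => β' • y) := by
  rintro A hA σ hσ ι hι _ ⟨y, rfl⟩
  obtain ⟨h1, h2, h3⟩ := h A hA σ hσ ι hι
  have e1 := phi_smul_of_dvd (Φ := Φ) hβ h1 y
  have e2 := phi_smul_of_dvd (Φ := Φ) hβ h2 y
  have e3 := phi_smul_of_dvd (Φ := Φ) hβ h3 y
  have c1 : (ε : R) * (q : R) = ((ε * (q : ℤ) : ℤ) : R) := by push_cast; ring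
  rw [H.phi_sub_mul_sub, c1, Int.cast_smul_eq_zsmul, one_smul] at e1
  rw [H.phi_sub_mul_sub, one_smul, Int.cast_smul_eq_zsmul] at e2
  rw [H.phi_sub_mul_sub, c1, Int.cast_smul_eq_zsmul, Int.cast_smul_eq_zsmul] at e3
  exact ⟨sub_eq_zero.1 e1, sub_eq_zero.1 e2, sub_eq_zero.1 e3⟩

end Voc

namespace Gen2

section Act

variable {R V : Type} [CommRing R] [AddCommGroup V] [Module R V] [DistribMulAction GQ V]
  {ρ : GQ →* M₂ R} {Φ : M₂ R →ₐ[R] Module.End R V} {φ τ : GQ}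

/-- **(A)** output. -/
theorem locUnip (D : Gen2 ρ φ τ) (H : RhoAct ρ Φ) {β' : R} (hβ : (ρ τ).trace + 1 ∣ β') :
    LocUnip 2 (Set.range fun y : V => β' • y) :=
  locUnip_range H hβ fun A hA _ hσ _ hσ' => D.unip_out A hA hσ hσ'

/-- **(B2)** output. -/
theorem locUr (D : Gen2 ρ φ τ) (H : RhoAct ρ Φ) {β' : R}
    (hβ : ((ρ τ).trace + 1) * (9 - (ρ φ).trace ^ 2) ∣ β') :
    LocUr 2 (Set.range fun y : V => β' • y) :=
  locUr_range H hβ fun A hA _ hσ => D.ur_out A hA hσ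

/-- **(B1)** output. -/
theorem locUr_univ (D : Gen2 ρ φ τ) (H : RhoAct ρ Φ)
    (h : ∀ A : ValuationSubring Qbar, A.LiesOverPrime 2 → ∀ σ ∈ A.inertiaSubgroupIn ℚ, ρ σ = 1) :
    LocUr 2 (Set.univ : Set V) := by
  intro A hA σ hσ x _
  rw [← H.act, h A hA σ hσ, map_one, Module.End.one_apply]

/-- the value of `z₂ + 3` on a class on which `τ` is unipotent. -/
theorem w_smul (D : Gen2 ρ φ τ) (H : RhoAct ρ Φ) {v : V} (hv : τ • (τ • v - v) = τ • v - v) :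
    ((ρ τ).trace + 1) • v = (3 : ℤ) • v := by
  have h1 : τ • v - v = v - τ⁻¹ • v := by
    have := congrArg (fun x => τ⁻¹ • x) hv
    simp only [inv_smul_smul, smul_sub] at this
    exact this
  have h2 : ((ρ τ).trace - 2) • v = 0 := by
    rw [H.z_smul D.detT, two_nsmul]
    calc τ • v + τ⁻¹ • v - (v + v) = (τ • v - v) - (v - τ⁻¹ • v) := by abel
      _ = 0 := by rw [h1, sub_self]
  have e : (ρ τ).trace + 1 = ((ρ τ).trace - 2) + ((3 : ℤ) : R) := by push_cast; ring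
  rw [e, add_smul, h2, zero_add, Int.cast_smul_eq_zsmul]

/-- **(B2)** the value of the factor. -/
theorem ur_value (D : Gen2 ρ φ τ) (H : RhoAct ρ Φ) {v : V} (hv : τ • v = v) (a : ℤ)
    (hu : ((ρ φ).trace - (a : R)) • v = 0) :
    (((ρ τ).trace + 1) * (9 - (ρ φ).trace ^ 2)) • v = (3 * (9 - a ^ 2) : ℤ) • v := by
  have h9 : (9 - (ρ φ).trace ^ 2) • v = ((9 - a ^ 2 : ℤ) : R) • v := by
    have e : 9 - (ρ φ).trace ^ 2 =
        ((9 - a ^ 2 : ℤ) : R) - ((ρ φ).trace + (a : R)) * ((ρ φ).trace - (a : R)) := by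
      push_cast; ring
    rw [e, sub_smul, mul_smul, hu, smul_zero, sub_zero]
  rw [mul_smul, h9, smul_comm, D.w_smul H (by rw [hv, sub_self, smul_zero]),
    Int.cast_smul_eq_zsmul, smul_smul, mul_comm]

end Act

section Strict

variable {p : ℕ} [Fact p.Prime] {T : Finset ℕ} {θ : ℕ → ℤ} {rbar0 : GQ →* M₂ (ZMod p)}
  {R V : Type} [CommRing R] [AddCommGroup V] [Module R V] [DistribMulAction GQ V]
  {π0 : R →+* ZMod p} {ρ : GQ →* M₂ R} {Φ : M₂ R →ₐ[R] Module.End R V} {φ τ : GQ}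

/-- **(B2)** `strict` at `2` : inertia trivial on `G`, `t₂ - a ∈ I`. -/
theorem strict_ur (D : Gen2 ρ φ τ) (H : RhoAct ρ Φ) (hadj : Algebra.adjoin R (Set.range ρ) = ⊤)
    (hlift : ∀ σ, (ρ σ).map π0 = rbar0 σ) (hloc : ∀ a : R, π0 a ≠ 0 → IsUnit a)
    (hns : ∀ c : ZMod p, rbar0 φ ≠ c • (1 : M₂ (ZMod p))) :
    ∃ M : M₂ R, IsUnit (M.map π0) ∧ ∀ (G : Submodule R V), (∀ g : GQ, ∀ x ∈ G, g • x ∈ G) →
      (∀ σ ∈ inert twoP, ∀ x ∈ G, σ • x = x) → ∀ (I : Ideal R) (a : ℤ),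
      (ρ φ).trace - (a : R) ∈ I →
      ∀ σ ∈ decomp twoP, ConjConst ℤ (G.annihilator ⊔ I) M (ρ σ) := by
  obtain ⟨e, he⟩ := exists_cyclic (rbar0 φ) hns
  set Q : M₂ R := colMat (ρ φ) (fun i => ((e i : ℤ) : R)) with hQ
  have hQmap : Q.map π0 = colMat (rbar0 φ) (fun i => ((e i : ℤ) : ZMod p)) := by
    rw [hQ, colMat_map, hlift]
    congr 1
    funext i
    exact map_intCast π0 (e i)
  have hdet : IsUnit Q.det := by
    refine hloc _ ?_
    have : π0 Q.det = (Q.map π0).det := RingHom.map_det π0 Q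
    rw [this, hQmap]
    exact he
  have hQQ' : Q * Q⁻¹ = 1 := Matrix.mul_nonsing_inv Q hdet
  have hQ'Q : Q⁻¹ * Q = 1 := Matrix.nonsing_inv_mul Q hdet
  have hcomp : Q⁻¹ * ρ φ = !![0, -(ρ φ).det; 1, (ρ φ).trace] * Q⁻¹ := by
    have h1 := mul_colMat (ρ φ) (fun i => ((e i : ℤ) : R))
    rw [← hQ] at h1
    calc Q⁻¹ * ρ φ = Q⁻¹ * (ρ φ * Q) * Q⁻¹ := by rw [mul_assoc, mul_assoc, hQQ', mul_one]
      _ = !![0, -(ρ φ).det; 1, (ρ φ).trace] * Q⁻¹ := by rw [h1, ← mul_assoc, hQ'Q, one_mul]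
  refine ⟨Q⁻¹, ?_, fun G hG hur I a ha => ?_⟩
  · have h : π0.mapMatrix Q * π0.mapMatrix Q⁻¹ = 1 := by rw [← map_mul, hQQ', map_one]
    have h' : π0.mapMatrix Q⁻¹ * π0.mapMatrix Q = 1 := by rw [← map_mul, hQ'Q, map_one]
    exact ⟨⟨π0.mapMatrix Q⁻¹, π0.mapMatrix Q, h', h⟩, rfl⟩
  · obtain ⟨N, hN, htors⟩ := D.tors
    refine conjConst_of_gens D.cont twoP N hN htors (fun σ hσ => ⟨1, ?_⟩) D.frob
      ⟨!![0, -2; 1, a], ?_⟩
    · have e2 : (1 : M₂ ℤ).map (algebraMap ℤ R) = 1 := map_one (algebraMap ℤ R).mapMatrix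
      rw [e2, one_mul]
      have e3 : Q⁻¹ * ρ σ - Q⁻¹ = Q⁻¹ * (ρ σ - 1) := by rw [mul_sub, mul_one]
      rw [e3]
      refine entries_mul_mem _ _ _ fun i k => Ideal.mem_sup_left
        (H.entry_mem_ann hadj G hG (fun y hy => ?_) i k)
      rw [H.phi_sub_one, hur σ hσ y hy, sub_self]
    · have e2 : (!![0, -2; 1, a] : M₂ ℤ).map (algebraMap ℤ R) = !![0, -2; 1, (a : R)] := by
        ext i j
        fin_cases i <;> fin_cases j <;> simp
      rw [hcomp, e2, ← sub_mul, D.detF]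
      refine Raise.mul_entries_mem _ _ _ fun i k => ?_
      fin_cases i <;> fin_cases k
      · simp
      · simp
      · simp
      · simpa using Ideal.mem_sup_right ha

end Strict

end Gen2

end Fermat.Agent.ML.At2
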