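import Fermat.Agent.ML.At2.Cell2St

/-!
# ML / AT-2 / Cell2Pkg : [CELL-2]  THE UNIFORM PACKAGE AT THE PRIME `2`, for the steps Soft / Hard / P

`Pkg2` : at most one variable `u` (with `δ`), a multiplier `β₂`, its integer value `N2val` (which depends only on `rbar0`, `P`, `φ`).
-/

set_option autoImplicit false
set_option linter.unusedSectionVars false
set_option linter.unusedVariables false

noncomputable section

namespace Fermat.Agent.ML.At2

open Matrix Fermat.Agent.RIB Fermat.Agent.ML Fermat.Agent.S56 Fermat.Agent.S56.Gen ExtCitation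
open CFT (decomp)

local notation "Qbar" => AlgebraicClosure ℚ
local notation "M₂" => Matrix (Fin 2) (Fin 2)

/-- an integer lift `a` of `tr rbar0(φ)` with `a² ≠ 9`. -/
def a2 {p : ℕ} (rbar0 : GQ →* M₂ (ZMod p)) (φ : GQ) : ℤ := ((rbar0 φ).trace.val : ℤ) + 2 * p

open Classical in
/-- the integer by which the multiplier at `2` acts at the auxiliary point. -/
def N2val {p : ℕ} (rbar0 : GQ →* M₂ (ZMod p)) (P : Finset ℕ) (φ : GQ) : ℤ :=
  if Ram rbar0 2 then 3 else if 2 ∈ P then 9 * p else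
    if (rbar0 φ).trace ^ 2 = 9 then 3 * (9 - a2 rbar0 φ ^ 2) else 1

/-- the package at `2`. -/
structure Pkg2 {p : ℕ} [Fact p.Prime] (rbar0 : GQ →* M₂ (ZMod p)) {R V : Type} [CommRing R]
    [AddCommGroup V] [Module R V] [DistribMulAction GQ V] (π0 : R →+* ZMod p) (ρ : GQ →* M₂ R)
    (P : Finset ℕ) (ε : ℤ) (N2 : ℤ) (k2 : ℕ) (u dl : Fin k2 → R) (β2 : R) : Prop where
  k2_le : k2 ≤ 1
  pi0_u : ∀ j, π0 (u j) = 0
  /-- [out] : the fields of `IsCell` at `2` on `β' V`, `β₂ ∣ β'`. -/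
  out_ur : ¬ Ram rbar0 2 → 2 ∉ P → ∀ β' : R, β2 ∣ β' → LocUr 2 (Set.range fun y : V => β' • y)
  out_unip : Ram rbar0 2 ∨ 2 ∈ P → ∀ β' : R, β2 ∣ β' → LocUnip 2 (Set.range fun y : V => β' • y)
  out_st : 2 ∈ P → ∀ β' : R, β2 ∣ β' → LocSt 2 ε (Set.range fun y : V => β' • y)
  /-- [val] -/
  val : ∀ Gt : Submodule R V, (∀ g : GQ, ∀ x ∈ Gt, g • x ∈ Gt) →
    (¬ Ram rbar0 2 → 2 ∉ P → LocUr 2 (Gt : Set V)) →
    (Ram rbar0 2 ∨ 2 ∈ P → LocUnip 2 (Gt : Set V)) → (2 ∈ P → LocSt 2 ε (Gt : Set V)) →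
    ∀ x ∈ Gt, (∀ j, (u j - (p : R) * dl j) • x = 0) → β2 • x = N2 • x
  /-- [gen] : no variable : the field `hmin` of `GenHypMZ.of_act` at `2` (`twoP ∉ Rs`);
  one variable : `twoP ∈ Rs`, weight `1`, the field `hstrict`. -/
  gen : ∀ Gt : Submodule R V, (∀ g : GQ, ∀ x ∈ Gt, g • x ∈ Gt) →
    (¬ Ram rbar0 2 → 2 ∉ P → LocUr 2 (Gt : Set V)) →
    (Ram rbar0 2 ∨ 2 ∈ P → LocUnip 2 (Gt : Set V)) → (2 ∈ P → LocSt 2 ε (Gt : Set V)) →
    (k2 = 0 ∧ ((∀ σ ∈ inert twoP, ∀ x ∈ Gt, σ • x = x) ∨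
      ((∃ σ ∈ inert twoP, rbar0 σ ≠ 1) ∧
        ∀ σ ∈ inert twoP, ∀ x ∈ Gt, σ • (σ • x - x) = σ • x - x))) ∨
    (k2 = 1 ∧
      Nat.card ↥(B1loc (adRep (mapK (kM p) rbar0)) twoP) * Nat.card (kM p) ^ 1 ≤
        Nat.card (kM p) ^ 3 ∧
      ∀ I : Ideal R, (∀ j, u j ∈ I) → ∃ M : M₂ R, IsUnit (M.map π0) ∧
        ∀ σ ∈ decomp twoP, ConjConst ℤ (Gt.annihilator ⊔ I) M (ρ σ))

section Main

variable {p : ℕ} [Fact p.Prime] {T : Finset ℕ} {θ : ℕ → ℤ} {rbar0 : GQ →* M₂ (ZMod p)}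
  {R V : Type} [CommRing R] [AddCommGroup V] [Module R V] [DistribMulAction GQ V]
  {π0 : R →+* ZMod p} {ρ : GQ →* M₂ R} {Φ : M₂ R →ₐ[R] Module.End R V}

theorem N2val_ne_zero (P : Finset ℕ) (φ : GQ) : N2val rbar0 P φ ≠ 0 := by
  have hp : 2 ≤ (p : ℤ) := by exact_mod_cast (Fact.out : p.Prime).two_le
  unfold N2val
  split_ifs
  · norm_num
  · intro h
    nlinarith
  · have h0 : (0 : ℤ) ≤ ((rbar0 φ).trace.val : ℤ) := Int.natCast_nonneg _
    have h4 : (4 : ℤ) ≤ a2 rbar0 φ := by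
      unfold a2
      linarith
    intro h
    nlinarith
  · norm_num

theorem a2_cast (φ : GQ) : ((a2 rbar0 φ : ℤ) : ZMod p) = (rbar0 φ).trace := by
  haveI : NeZero p := ⟨(Fact.out : p.Prime).ne_zero⟩
  unfold a2
  push_cast
  rw [ZMod.natCast_zmod_val, ZMod.natCast_self, mul_zero, add_zero]

theorem nonscalar_of_trace {X : M₂ (ZMod p)} (h9 : X.trace ^ 2 = 9) (hdet : X.det = 2) :
    ∀ c : ZMod p, X ≠ c • (1 : M₂ (ZMod p)) := by
  intro c hc
  rw [hc] at h9 hdet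
  simp only [Matrix.trace_smul, Matrix.trace_one, Fintype.card_fin, Matrix.det_smul,
    Matrix.det_one, smul_eq_mul, mul_one] at h9 hdet
  have : (1 : ZMod p) = 0 := by
    push_cast at h9
    linear_combination 4 * hdet - h9
  exact one_ne_zero this

/-- **[CELL-2]** the uniform package. -/
theorem exists_pkg2 (C : MCtx p T θ rbar0) (H : RhoAct ρ Φ)
    (hadj : Algebra.adjoin R (Set.range ρ) = ⊤) (hcont : GaloisFactorsThroughFiniteLevel ρ)
    (hlift : ∀ σ, (ρ σ).map π0 = rbar0 σ) (hloc : ∀ a : R, π0 a ≠ 0 → IsUnit a)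
    {N : ℕ} (hnil : RingHom.ker π0 ^ N = ⊥) (hdetI : ∀ σ ∈ inert twoP, (ρ σ).det = 1) {φ : GQ}
    (hφ : (primeLocalPlace twoP).IsFrobeniusAt φ 2) (hdetF : (ρ φ).det = 2)
    (P : Finset ℕ) (ε : ℤ) (hε : ε * ε = 1)
    (hP : 2 ∈ P → ¬ Ram rbar0 2 ∧ (rbar0 φ).trace = 3 * (ε : ZMod p)) :
    ∃ (k2 : ℕ) (u dl : Fin k2 → R) (β2 : R),
      Pkg2 (V := V) rbar0 π0 ρ P ε (N2val rbar0 P φ) k2 u dl β2 := by
  obtain ⟨τ, D⟩ := exists_gen2 C hcont hlift hloc hnil hdetI hφ hdetF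
  have hA0 : (primeLocalPlace twoP).LiesOverPrime 2 := liesOverPrime_primeLocalPlace twoP
  have hdetb : (rbar0 φ).det = 2 := by
    have h1 : π0 (ρ φ).det = ((ρ φ).map π0).det := RingHom.map_det π0 (ρ φ)
    rw [← hlift φ, ← h1, hdetF, map_ofNat]
  by_cases hram : Ram rbar0 2
  · -- (A)
    have hN : N2val rbar0 P φ = 3 := by
      unfold N2val
      rw [if_pos hram]
    refine ⟨0, fun j => j.elim0, fun j => j.elim0, (ρ τ).trace + 1, ?_⟩
    rw [hN]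
    refine ⟨Nat.zero_le _, fun j => j.elim0, fun h => absurd hram h,
      fun _ β' hβ => D.locUnip H hβ, fun h2 => absurd hram (hP h2).1, ?_, ?_⟩
    · intro Gt _ _ hunip _ x hx _
      exact D.w_smul H (hunip (Or.inl hram) _ hA0 τ D.mem τ D.mem x hx)
    · intro Gt _ _ hunip _
      refine Or.inl ⟨rfl, Or.inr ⟨?_, fun σ hσ x hx => hunip (Or.inl hram) _ hA0 σ hσ σ hσ x hx⟩⟩
      obtain ⟨A, hA, σ, hσ, hne⟩ := hram
      obtain ⟨g, rfl⟩ := Bridge.exists_smul_eq Nat.prime_two hA0 hA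
      rw [Bridge.mem_inertia_smul_iff Nat.prime_two hA0] at hσ
      refine ⟨_, hσ, fun h1 => hne ?_⟩
      rw [rho_conj rbar0 g σ, h1, mul_one, ← map_mul, mul_inv_cancel, map_one]
  have hunr : ∀ σ ∈ inert twoP, rbar0 σ = 1 := fun σ hσ => unram_of_not_ram hram _ hA0 σ hσ
  by_cases h2P : 2 ∈ P
  · -- (C)
    have hN : N2val rbar0 P φ = 9 * p := by
      unfold N2val
      rw [if_neg hram, if_pos h2P]
    have h9 : (rbar0 φ).trace ^ 2 = 9 := by
      have hεZ : (ε : ZMod p) * (ε : ZMod p) = 1 := by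
        exact_mod_cast congrArg (Int.cast : ℤ → ZMod p) hε
      rw [(hP h2P).2]
      linear_combination 9 * hεZ
    obtain ⟨b, M, hb0, hM, hout, hstrict⟩ :=
      D.exists_st H hadj hlift hloc hnil (hunr τ D.mem) ε hε (hP h2P).2
    refine ⟨1, fun _ => b, fun _ => 1, ((ρ τ).trace + 1) * ((ρ τ).trace + 1) * b, ?_⟩
    rw [hN]
    refine ⟨le_rfl, fun _ => hb0, fun _ h => absurd h2P h, fun _ β' hβ => D.locUnip H
      (Dvd.dvd.trans ⟨((ρ τ).trace + 1) * b, by ring⟩ hβ), fun _ β' hβ => locSt_range H hβ hout,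
      ?_, ?_⟩
    · intro Gt _ _ hunip _ x hx hu
      have hw : ∀ y ∈ Gt, ((ρ τ).trace + 1) • y = (3 : ℤ) • y := fun y hy =>
        D.w_smul H (hunip (Or.inr h2P) _ hA0 τ D.mem τ D.mem y hy)
      have hb : b • x = (p : R) • x := by
        have := hu 0
        rwa [mul_one, sub_smul, sub_eq_zero] at this
      rw [mul_smul, mul_smul, hb, hw _ (Gt.smul_mem _ hx), smul_comm, hw _ (Gt.smul_mem _ hx),
        Nat.cast_smul_eq_nsmul, smul_smul, ← natCast_zsmul, smul_smul]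
      norm_num
    · intro Gt hG _ _ hst
      exact Or.inr ⟨rfl, C.weight_one twoP hunr hφ (nonscalar_of_trace h9 hdetb), fun I hI =>
        ⟨M, hM, hstrict Gt hG (fun x hx => hst h2P _ hA0 φ hφ τ D.mem x hx) I (hI 0)⟩⟩
  by_cases h9 : (rbar0 φ).trace ^ 2 = 9
  · -- (B2)
    have hN : N2val rbar0 P φ = 3 * (9 - a2 rbar0 φ ^ 2) := by
      unfold N2val
      rw [if_neg hram, if_neg h2P, if_pos h9]
    have hns := nonscalar_of_trace h9 hdetb
    obtain ⟨M, hM, hstrict⟩ := D.strict_ur H hadj hlift hloc hns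
    refine ⟨1, fun _ => (ρ φ).trace - ((a2 rbar0 φ : ℤ) : R), fun _ => 0,
      ((ρ τ).trace + 1) * (9 - (ρ φ).trace ^ 2), ?_⟩
    rw [hN]
    refine ⟨le_rfl, fun _ => ?_, fun _ _ β' hβ => D.locUr H hβ,
      fun h => h.elim (fun h => absurd h hram) (fun h => absurd h h2P),
      fun h => absurd h h2P, ?_, ?_⟩
    · rw [map_sub, Gen2.pi0_trace hlift, map_intCast, a2_cast, sub_self]
    · intro Gt _ hur _ _ x hx hu
      refine D.ur_value H (hur hram h2P _ hA0 τ D.mem x hx) _ ?_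
      have := hu 0
      rwa [mul_zero, sub_zero] at this
    · intro Gt hG hur _ _
      exact Or.inr ⟨rfl, C.weight_one twoP hunr hφ hns, fun I hI =>
        ⟨M, hM, hstrict Gt hG (fun σ hσ x hx => hur hram h2P _ hA0 σ hσ x hx) I _ (hI 0)⟩⟩
  · -- (B1)
    have hN : N2val rbar0 P φ = 1 := by
      unfold N2val
      rw [if_neg hram, if_neg h2P, if_neg h9]
    refine ⟨0, fun j => j.elim0, fun j => j.elim0, 1, ?_⟩
    rw [hN]
    refine ⟨Nat.zero_le _, fun j => j.elim0, ?_,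
      fun h => h.elim (fun h => absurd h hram) (fun h => absurd h h2P),
      fun h => absurd h h2P, ?_, ?_⟩
    · intro _ _ β' _ A hA σ hσ x _
      rw [← H.act, D.eq_one_of_not_mixed C hlift hloc h9 A hA hσ, map_one, Module.End.one_apply]
    · intro Gt _ _ _ _ x _ _
      rw [one_smul, one_zsmul]
    · intro Gt _ hur _ _
      exact Or.inl ⟨rfl, Or.inl fun σ hσ x hx => hur hram h2P _ hA0 σ hσ x hx⟩

end Main

end Fermat.Agent.ML.At2
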