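import Fermat.Agent.ML.At2.Cell2Pkg

/-!
# ML / AT-2 / Cell2Pol : [CELL-2]  the uniform package at `2` WITH the number of variables and the
multiplier as a polynomial in the variables modulo the annihilator (needed by the `F`-steps).
-/

set_option autoImplicit false
set_option linter.unusedSectionVars false
set_option linter.unusedVariables false

noncomputable section

namespace Fermat.Agent.ML.At2

open Matrix Fermat.Agent.RIB Fermat.Agent.ML Fermat.Agent.S56 Fermat.Agent.S56.Gen ExtCitation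
open CFT (decomp)

local notation "Qbar" => AlgebraicClosure ℚ
local notation "M₂" => Matrix (Fin 2) (Fin 2)

/-- the multiplier is a polynomial (with integer coefficients, independent of the cell) in the
variables, modulo the annihilator of the cell; its value at the auxiliary point is `N2`. -/
def Pol2 {p : ℕ} (rbar0 : GQ →* M₂ (ZMod p)) {R : Type} (V : Type) [CommRing R]
    [AddCommGroup V] [Module R V] [DistribMulAction GQ V]
    (P : Finset ℕ) (ε : ℤ) (N2 : ℤ) (k2 : ℕ) (u dl : Fin k2 → R) (β2 : R) : Prop :=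
  ∃ (dz : Fin k2 → ℤ) (P2 : MvPolynomial (Fin k2) ℤ), (∀ j, dl j = ((dz j : ℤ) : R)) ∧
    MvPolynomial.aeval (fun j => (p : ℤ) * dz j) P2 = N2 ∧
    ∀ Gt : Submodule R V, (∀ g : GQ, ∀ x ∈ Gt, g • x ∈ Gt) →
      (¬ Ram rbar0 2 → 2 ∉ P → LocUr 2 (Gt : Set V)) →
      (Ram rbar0 2 ∨ 2 ∈ P → LocUnip 2 (Gt : Set V)) → (2 ∈ P → LocSt 2 ε (Gt : Set V)) →
      β2 - MvPolynomial.aeval u P2 ∈ Gt.annihilator

section Main

variable {p : ℕ} [Fact p.Prime] {T : Finset ℕ} {θ : ℕ → ℤ} {rbar0 : GQ →* M₂ (ZMod p)}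
  {R V : Type} [CommRing R] [AddCommGroup V] [Module R V] [DistribMulAction GQ V]
  {π0 : R →+* ZMod p} {ρ : GQ →* M₂ R} {Φ : M₂ R →ₐ[R] Module.End R V}

/-- **[CELL-2]** the uniform package, with `k2` explicit and the field `pol`. -/
theorem exists_pkg2_pol (C : MCtx p T θ rbar0) (H : RhoAct ρ Φ)
    (hadj : Algebra.adjoin R (Set.range ρ) = ⊤) (hcont : GaloisFactorsThroughFiniteLevel ρ)
    (hlift : ∀ σ, (ρ σ).map π0 = rbar0 σ) (hloc : ∀ a : R, π0 a ≠ 0 → IsUnit a)
    {N : ℕ} (hnil : RingHom.ker π0 ^ N = ⊥) (hdetI : ∀ σ ∈ inert twoP, (ρ σ).det = 1) {φ : GQ}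
    (hφ : (primeLocalPlace twoP).IsFrobeniusAt φ 2) (hdetF : (ρ φ).det = 2)
    (P : Finset ℕ) (ε : ℤ) (hε : ε * ε = 1)
    (hP : 2 ∈ P → ¬ Ram rbar0 2 ∧ (rbar0 φ).trace = 3 * (ε : ZMod p)) :
    ∃ (k2 : ℕ) (u dl : Fin k2 → R) (β2 : R),
      Pkg2 (V := V) rbar0 π0 ρ P ε (N2val rbar0 P φ) k2 u dl β2 ∧
      (k2 = 1 ↔ ¬ Ram rbar0 2 ∧ (2 ∈ P ∨ (rbar0 φ).trace ^ 2 = 9)) ∧
      Pol2 rbar0 V P ε (N2val rbar0 P φ) k2 u dl β2 := by
  obtain ⟨τ, D⟩ := exists_gen2 C hcont hlift hloc hnil hdetI hφ hdetF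
  have hA0 : (primeLocalPlace twoP).LiesOverPrime 2 := liesOverPrime_primeLocalPlace twoP
  have hdetb : (rbar0 φ).det = 2 := by
    have h1 : π0 (ρ φ).det = ((ρ φ).map π0).det := RingHom.map_det π0 (ρ φ)
    rw [← hlift φ, ← h1, hdetF, map_ofNat]
  by_cases hram : Ram rbar0 2
  · -- (A)
    have hN : N2val rbar0 P φ = 3 := by
      unfold N2val
      rw [if_pos hram]
    refine ⟨0, fun j => j.elim0, fun j => j.elim0, (ρ τ).trace + 1, ?_,
      ⟨fun h => absurd h (by norm_num), fun h => absurd hram h.1⟩,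
      fun j => j.elim0, MvPolynomial.C 3, fun j => j.elim0, ?_, ?_⟩
    · rw [hN]
      refine ⟨Nat.zero_le _, fun j => j.elim0, fun h => absurd hram h,
        fun _ β' hβ => D.locUnip H hβ, fun h2 => absurd hram (hP h2).1, ?_, ?_⟩
      · intro Gt _ _ hunip _ x hx _
        exact D.w_smul H (hunip (Or.inl hram) _ hA0 τ D.mem τ D.mem x hx)
      · intro Gt _ _ hunip _
        refine Or.inl ⟨rfl, Or.inr ⟨?_, fun σ hσ x hx =>
          hunip (Or.inl hram) _ hA0 σ hσ σ hσ x hx⟩⟩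
        obtain ⟨A, hA, σ, hσ, hne⟩ := hram
        obtain ⟨g, rfl⟩ := Bridge.exists_smul_eq Nat.prime_two hA0 hA
        rw [Bridge.mem_inertia_smul_iff Nat.prime_two hA0] at hσ
        refine ⟨_, hσ, fun h1 => hne ?_⟩
        rw [rho_conj rbar0 g σ, h1, mul_one, ← map_mul, mul_inv_cancel, map_one]
    · rw [hN, MvPolynomial.aeval_C]
      rfl
    · intro Gt _ _ hunip _
      rw [Submodule.mem_annihilator]
      intro x hx
      rw [sub_smul, D.w_smul H (hunip (Or.inl hram) _ hA0 τ D.mem τ D.mem x hx),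
        MvPolynomial.aeval_C, algebraMap_smul, sub_self]
  have hunr : ∀ σ ∈ inert twoP, rbar0 σ = 1 := fun σ hσ => unram_of_not_ram hram _ hA0 σ hσ
  by_cases h2P : 2 ∈ P
  · -- (C)
    have hN : N2val rbar0 P φ = 9 * p := by
      unfold N2val
      rw [if_neg hram, if_pos h2P]
    have h9 : (rbar0 φ).trace ^ 2 = 9 := by
      have hεZ : (ε : ZMod p) * (ε : ZMod p) = 1 := by
        exact_mod_cast congrArg (Int.cast : ℤ → ZMod p) hε
      rw [(hP h2P).2]
      linear_combination 9 * hεZ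
    obtain ⟨b, M, hb0, hM, hout, hstrict⟩ :=
      D.exists_st H hadj hlift hloc hnil (hunr τ D.mem) ε hε (hP h2P).2
    refine ⟨1, fun _ => b, fun _ => 1, ((ρ τ).trace + 1) * ((ρ τ).trace + 1) * b, ?_,
      ⟨fun _ => ⟨hram, Or.inl h2P⟩, fun _ => rfl⟩,
      fun _ => 1, MvPolynomial.C 9 * MvPolynomial.X 0, fun _ => by rw [Int.cast_one], ?_, ?_⟩
    · rw [hN]
      refine ⟨le_rfl, fun _ => hb0, fun _ h => absurd h2P h, fun _ β' hβ => D.locUnip H
        (Dvd.dvd.trans ⟨((ρ τ).trace + 1) * b, by ring⟩ hβ),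
        fun _ β' hβ => locSt_range H hβ hout, ?_, ?_⟩
      · intro Gt _ _ hunip _ x hx hu
        have hw : ∀ y ∈ Gt, ((ρ τ).trace + 1) • y = (3 : ℤ) • y := fun y hy =>
          D.w_smul H (hunip (Or.inr h2P) _ hA0 τ D.mem τ D.mem y hy)
        have hb : b • x = (p : R) • x := by
          have := hu 0
          rwa [mul_one, sub_smul, sub_eq_zero] at this
        rw [mul_smul, mul_smul, hb, hw _ (Gt.smul_mem _ hx), smul_comm, hw _ (Gt.smul_mem _ hx),
          Nat.cast_smul_eq_nsmul, smul_smul, ← natCast_zsmul, smul_smul]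
        norm_num
      · intro Gt hG _ _ hst
        exact Or.inr ⟨rfl, C.weight_one twoP hunr hφ (nonscalar_of_trace h9 hdetb), fun I hI =>
          ⟨M, hM, hstrict Gt hG (fun x hx => hst h2P _ hA0 φ hφ τ D.mem x hx) I (hI 0)⟩⟩
    · rw [hN, map_mul, MvPolynomial.aeval_C, MvPolynomial.aeval_X, mul_one]
      rfl
    · intro Gt _ _ hunip _
      rw [Submodule.mem_annihilator]
      intro x hx
      have hw : ∀ y ∈ Gt, ((ρ τ).trace + 1) • y = (3 : ℤ) • y := fun y hy =>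
        D.w_smul H (hunip (Or.inr h2P) _ hA0 τ D.mem τ D.mem y hy)
      rw [sub_smul, map_mul, MvPolynomial.aeval_C, MvPolynomial.aeval_X, mul_smul, mul_smul,
        mul_smul, algebraMap_smul, hw _ (Gt.smul_mem _ hx), smul_comm,
        hw _ (Gt.smul_mem _ hx), smul_smul, sub_eq_zero]
      norm_num
  by_cases h9 : (rbar0 φ).trace ^ 2 = 9
  · -- (B2)
    have hN : N2val rbar0 P φ = 3 * (9 - a2 rbar0 φ ^ 2) := by
      unfold N2val
      rw [if_neg hram, if_neg h2P, if_pos h9]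
    have hns := nonscalar_of_trace h9 hdetb
    obtain ⟨M, hM, hstrict⟩ := D.strict_ur H hadj hlift hloc hns
    refine ⟨1, fun _ => (ρ φ).trace - ((a2 rbar0 φ : ℤ) : R), fun _ => 0,
      ((ρ τ).trace + 1) * (9 - (ρ φ).trace ^ 2), ?_,
      ⟨fun _ => ⟨hram, Or.inr h9⟩, fun _ => rfl⟩,
      fun _ => 0, MvPolynomial.C 3 * (MvPolynomial.C 9 -
        (MvPolynomial.X 0 + MvPolynomial.C (a2 rbar0 φ)) ^ 2), fun _ => by rw [Int.cast_zero],
      ?_, ?_⟩
    · rw [hN]
      refine ⟨le_rfl, fun _ => ?_, fun _ _ β' hβ => D.locUr H hβ,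
        fun h => h.elim (fun h => absurd h hram) (fun h => absurd h h2P),
        fun h => absurd h h2P, ?_, ?_⟩
      · rw [map_sub, Gen2.pi0_trace hlift, map_intCast, a2_cast, sub_self]
      · intro Gt _ hur _ _ x hx hu
        refine D.ur_value H (hur hram h2P _ hA0 τ D.mem x hx) _ ?_
        have := hu 0
        rwa [mul_zero, sub_zero] at this
      · intro Gt hG hur _ _
        exact Or.inr ⟨rfl, C.weight_one twoP hunr hφ hns, fun I hI =>
          ⟨M, hM, hstrict Gt hG (fun σ hσ x hx => hur hram h2P _ hA0 σ hσ x hx) I _ (hI 0)⟩⟩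
    · rw [hN]
      simp only [map_mul, map_sub, map_pow, map_add, MvPolynomial.aeval_C, MvPolynomial.aeval_X,
        mul_zero, zero_add]
      rfl
    · intro Gt _ hur _ _
      rw [Submodule.mem_annihilator]
      intro x hx
      have hw : ∀ y ∈ Gt, ((ρ τ).trace + 1) • y = (3 : ℤ) • y := fun y hy =>
        D.w_smul H (by rw [hur hram h2P _ hA0 τ D.mem y hy, sub_self, smul_zero])
      have e : MvPolynomial.aeval (fun _ : Fin 1 => (ρ φ).trace - ((a2 rbar0 φ : ℤ) : R))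
          (MvPolynomial.C 3 * (MvPolynomial.C 9 -
            (MvPolynomial.X 0 + MvPolynomial.C (a2 rbar0 φ)) ^ 2) : MvPolynomial (Fin 1) ℤ) =
          ((3 : ℤ) : R) * (9 - (ρ φ).trace ^ 2) := by
        simp only [map_mul, map_sub, map_pow, map_add, MvPolynomial.aeval_C,
          MvPolynomial.aeval_X, eq_intCast, sub_add_cancel]
        norm_num
      rw [e, sub_smul, mul_smul, mul_smul, hw _ (Gt.smul_mem _ hx), Int.cast_smul_eq_zsmul,
        sub_self]
  · -- (B1)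
    have hN : N2val rbar0 P φ = 1 := by
      unfold N2val
      rw [if_neg hram, if_neg h2P, if_neg h9]
    refine ⟨0, fun j => j.elim0, fun j => j.elim0, 1, ?_,
      ⟨fun h => absurd h (by norm_num), fun h => h.2.elim (fun h => absurd h h2P)
        (fun h => absurd h h9)⟩,
      fun j => j.elim0, 1, fun j => j.elim0, ?_, ?_⟩
    · rw [hN]
      refine ⟨Nat.zero_le _, fun j => j.elim0, ?_,
        fun h => h.elim (fun h => absurd h hram) (fun h => absurd h h2P),
        fun h => absurd h h2P, ?_, ?_⟩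
      · intro _ _ β' _ A hA σ hσ x _
        rw [← H.act, D.eq_one_of_not_mixed C hlift hloc h9 A hA hσ, map_one,
          Module.End.one_apply]
      · intro Gt _ _ _ _ x _ _
        rw [one_smul, one_zsmul]
      · intro Gt _ hur _ _
        exact Or.inl ⟨rfl, Or.inl fun σ hσ x hx => hur hram h2P _ hA0 σ hσ x hx⟩
    · rw [hN, map_one]
    · intro Gt _ _ _ _
      rw [map_one, sub_self]
      exact Submodule.zero_mem _

/-- `pol` in the per-cell shape (auxiliary point `pt`, divisible by `p`). -/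
theorem Pol2.cell {P : Finset ℕ} {ε N2 : ℤ} {k2 : ℕ} {u dl : Fin k2 → R} {β2 : R}
    (h : Pol2 rbar0 V P ε N2 k2 u dl β2) (Gt : Submodule R V)
    (hG : ∀ g : GQ, ∀ x ∈ Gt, g • x ∈ Gt)
    (hur : ¬ Ram rbar0 2 → 2 ∉ P → LocUr 2 (Gt : Set V))
    (hunip : Ram rbar0 2 ∨ 2 ∈ P → LocUnip 2 (Gt : Set V))
    (hst : 2 ∈ P → LocSt 2 ε (Gt : Set V)) :
    ∃ (P2 : MvPolynomial (Fin k2) ℤ) (pt : Fin k2 → ℤ), (∀ j, (p : ℤ) ∣ pt j) ∧
      β2 - MvPolynomial.aeval u P2 ∈ Gt.annihilator ∧ MvPolynomial.aeval pt P2 = N2 := by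
  obtain ⟨dz, P2, _, h2, h3⟩ := h
  exact ⟨P2, fun j => (p : ℤ) * dz j, fun j => Dvd.intro _ rfl, h3 Gt hG hur hunip hst, h2⟩

end Main

end Fermat.Agent.ML.At2
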