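import Fermat.Agent.ML.At2.Cell2

/-!
# ML / AT-2 / Cell2St : [CELL-2] (C)  the prime `2` after it has been raised (`2 ∈ P`, sign `ε`)

`w = z₂ + 3 = tr ρ(τ) + 1`, `N' = w (ρ(τ) - 1)`, `Tu' = 1 + N'` : `(Tu' - 1)² = 0`, `ρ(φ) Tu' = Tu'² ρ(φ)`, so `Raise.exists_stForm` applies to
`(ρ(φ), Tu')`.   `b` = the entry `(0,1)` of `ρ(τ) - 1` in the eigenbasis of `ρ(φ)`.   Factor `w² b`, variable `b`.
-/

set_option autoImplicit false
set_option linter.unusedSectionVars false
set_option linter.unusedVariables false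
set_option linter.style.haveILetI false
set_option linter.unnecessarySeqFocus false

noncomputable section

namespace Fermat.Agent.ML.At2

open Matrix Fermat.Agent.RIB Fermat.Agent.ML Fermat.Agent.S56 ExtCitation
open CFT (decomp)

local notation "Qbar" => AlgebraicClosure ℚ
local notation "M₂" => Matrix (Fin 2) (Fin 2)

/-! ### algebra -/

section AlgSt

variable {S : Type*} [CommRing S]

theorem conj_mul' {q q' : M₂ S} (h : q' * q = 1) (M N : M₂ S) :
    (q * M * q') * (q * N * q') = q * (M * N) * q' := by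
  calc (q * M * q') * (q * N * q') = q * M * (q' * q) * N * q' := by simp only [mul_assoc]
    _ = q * (M * N) * q' := by rw [h, mul_one]; simp only [mul_assoc]

theorem conj_sub_smul {q q' : M₂ S} (h : q * q' = 1) (M : M₂ S) (c : S) :
    q * M * q' - c • (1 : M₂ S) = q * (M - c • (1 : M₂ S)) * q' := by
  rw [mul_sub, sub_mul, mul_smul_comm, mul_one, smul_mul_assoc, h]

theorem upper_pow (b : S) (k : ℕ) : (!![1, b; 0, 1] : M₂ S) ^ k = !![1, k * b; 0, 1] := by
  induction k with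
  | zero =>
    ext i j
    fin_cases i <;> fin_cases j <;> simp
  | succ k ih =>
    rw [pow_succ, ih]
    ext i j
    fin_cases i <;> fin_cases j <;> simp [Matrix.mul_apply, Fin.sum_univ_two] <;> ring

theorem conj_pow {q q' : M₂ S} (h : q' * q = 1) (h' : q * q' = 1) (M : M₂ S) (k : ℕ) :
    (q * M * q') ^ k = q * M ^ k * q' := by
  induction k with
  | zero => rw [pow_zero, pow_zero, mul_one, h']
  | succ k ih => rw [pow_succ, ih, conj_mul' h, pow_succ]

/-- the three identities for the model `diag (2e, e)`, `[[1, b], [0, 1]]`. -/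
theorem st_alg {q q' : M₂ S} (h : q' * q = 1) (h' : q * q' = 1) (e b : S) (k j : ℕ) :
    ((q * !![e * 2, 0; 0, e] * q') * (q * !![1, b; 0, 1] * q') ^ k - (e * 2) • (1 : M₂ S)) *
        ((q * !![1, b; 0, 1] * q') ^ j - (1 : S) • (1 : M₂ S)) = 0 ∧
    ((q * !![1, b; 0, 1] * q') ^ j - (1 : S) • (1 : M₂ S)) *
        ((q * !![e * 2, 0; 0, e] * q') * (q * !![1, b; 0, 1] * q') ^ k - e • (1 : M₂ S)) = 0 ∧
    ((q * !![e * 2, 0; 0, e] * q') * (q * !![1, b; 0, 1] * q') ^ k - (e * 2) • (1 : M₂ S)) *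
        ((q * !![e * 2, 0; 0, e] * q') * (q * !![1, b; 0, 1] * q') ^ k - e • (1 : M₂ S)) = 0 := by
  simp only [conj_pow h h', upper_pow, conj_mul' h, conj_sub_smul h']
  refine ⟨?_, ?_, ?_⟩
  · have : (!![e * 2, 0; 0, e] * !![1, (k : S) * b; 0, 1] - (e * 2) • (1 : M₂ S)) *
        (!![1, (j : S) * b; 0, 1] - (1 : S) • (1 : M₂ S)) = 0 := by
      ext i l
      fin_cases i <;> fin_cases l <;> simp [Matrix.mul_apply, Fin.sum_univ_two]
    rw [this, mul_zero, zero_mul]
  · have : (!![1, (j : S) * b; 0, 1] - (1 : S) • (1 : M₂ S)) *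
        (!![e * 2, 0; 0, e] * !![1, (k : S) * b; 0, 1] - e • (1 : M₂ S)) = 0 := by
      ext i l
      fin_cases i <;> fin_cases l <;> simp [Matrix.mul_apply, Fin.sum_univ_two]
    rw [this, mul_zero, zero_mul]
  · have : (!![e * 2, 0; 0, e] * !![1, (k : S) * b; 0, 1] - (e * 2) • (1 : M₂ S)) *
        (!![e * 2, 0; 0, e] * !![1, (k : S) * b; 0, 1] - e • (1 : M₂ S)) = 0 := by
      ext i l
      fin_cases i <;> fin_cases l <;> simp [Matrix.mul_apply, Fin.sum_univ_two]
    rw [this, mul_zero, zero_mul]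

theorem smul_pow_congr {β : S} {X X₀ : M₂ S} (hX : β • X = β • X₀) (k : ℕ) :
    β • X ^ k = β • X₀ ^ k := by
  induction k with
  | zero => rw [pow_zero, pow_zero]
  | succ k ih => rw [pow_succ, pow_succ]; exact smul_mul_congr ih hX

theorem smul_sub_congr {β : S} {X X₀ : M₂ S} (hX : β • X = β • X₀) (Z : M₂ S) :
    β • (X - Z) = β • (X₀ - Z) := by
  rw [smul_sub, smul_sub, hX]

theorem smul_conj (β : S) (q M q' : M₂ S) : β • (q * M * q') = q * (β • M) * q' := by
  rw [mul_smul_comm, smul_mul_assoc]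

end AlgSt

namespace Gen2

variable {p : ℕ} [Fact p.Prime] {T : Finset ℕ} {θ : ℕ → ℤ} {rbar0 : GQ →* M₂ (ZMod p)}
  {R V : Type} [CommRing R] [AddCommGroup V] [Module R V] [DistribMulAction GQ V]
  {π0 : R →+* ZMod p} {ρ : GQ →* M₂ R} {Φ : M₂ R →ₐ[R] Module.End R V} {φ τ : GQ}

/-- **(C)** -/
theorem exists_st (D : Gen2 ρ φ τ) (H : RhoAct ρ Φ) (hadj : Algebra.adjoin R (Set.range ρ) = ⊤)
    (hlift : ∀ σ, (ρ σ).map π0 = rbar0 σ) (hloc : ∀ a : R, π0 a ≠ 0 → IsUnit a)
    {N : ℕ} (hnil : RingHom.ker π0 ^ N = ⊥) (hur : rbar0 τ = 1)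
    (ε : ℤ) (hε : ε * ε = 1) (htr : (rbar0 φ).trace = 3 * (ε : ZMod p)) :
    ∃ (b : R) (M : M₂ R), π0 b = 0 ∧ IsUnit (M.map π0) ∧
      (∀ A : ValuationSubring Qbar, A.LiesOverPrime 2 → ∀ σ : GQ, A.IsFrobeniusAt σ 2 →
        ∀ ι ∈ A.inertiaSubgroupIn ℚ,
        (((ρ τ).trace + 1) * ((ρ τ).trace + 1) * b) •
          ((ρ σ - ((ε : R) * (2 : ℕ)) • (1 : M₂ R)) * (ρ ι - (1 : R) • (1 : M₂ R))) = 0 ∧
        (((ρ τ).trace + 1) * ((ρ τ).trace + 1) * b) •
          ((ρ ι - (1 : R) • (1 : M₂ R)) * (ρ σ - (ε : R) • (1 : M₂ R))) = 0 ∧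
        (((ρ τ).trace + 1) * ((ρ τ).trace + 1) * b) •
          ((ρ σ - ((ε : R) * (2 : ℕ)) • (1 : M₂ R)) * (ρ σ - (ε : R) • (1 : M₂ R))) = 0) ∧
      ∀ G : Submodule R V, (∀ g : GQ, ∀ x ∈ G, g • x ∈ G) →
        (∀ x ∈ G, φ • (τ • x - x) = (ε * (2 : ℕ)) • (τ • x - x) ∧
          τ • (φ • x - ε • x) = φ • x - ε • x ∧
          φ • (φ • x - ε • x) = (ε * (2 : ℕ)) • (φ • x - ε • x)) →
        ∀ I : Ideal R, b ∈ I → ∀ σ ∈ decomp twoP, ConjConst ℤ (G.annihilator ⊔ I) M (ρ σ) := by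
  classical
  haveI : Nontrivial R := π0.domain_nontrivial
  haveI : IsLocalRing R := IsLocalRing.of_nonunits_add (by
    intro a b ha hb
    have ha0 : π0 a = 0 := by
      by_contra h
      exact ha (hloc a h)
    have hb0 : π0 b = 0 := by
      by_contra h
      exact hb (hloc b h)
    intro hu
    have := hu.map π0
    rw [map_add, ha0, hb0, add_zero] at this
    exact not_isUnit_zero this)
  have hmax : ∀ z : R, z ∈ IsLocalRing.maximalIdeal R ↔ π0 z = 0 := by
    intro z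
    rw [IsLocalRing.mem_maximalIdeal, mem_nonunits_iff]
    constructor
    · intro h
      by_contra h0
      exact h (hloc z h0)
    · intro h hu
      have := hu.map π0
      rw [h] at this
      exact not_isUnit_zero this
  have hnil' : ∀ z ∈ IsLocalRing.maximalIdeal R, IsNilpotent z := by
    intro z hz
    refine ⟨N, ?_⟩
    have : z ^ N ∈ RingHom.ker π0 ^ N := Ideal.pow_mem_pow ((hmax z).1 hz) N
    rwa [hnil, Ideal.mem_bot] at this
  set Sg : M₂ R := ρ φ with hSg
  set Tu : M₂ R := ρ τ with hTu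
  set w : R := Tu.trace + 1 with hw
  set N' : M₂ R := w • (Tu - 1) with hN'
  have hN'N' : N' * N' = 0 := Loc.Np_mul_Np D.rel D.detT D.detF_unit
  have hSN' : Sg * N' = (2 : R) • (N' * Sg) := Loc.Ph_mul_Np D.rel D.detT D.detF_unit
  have hunip : ((1 + N') - 1) * ((1 + N') - 1) = 0 := by
    rw [add_sub_cancel_left]
    exact hN'N'
  have hrel' : Sg * (1 + N') = (1 + N') ^ 2 * Sg := by
    have e : (1 + N') ^ 2 = 1 + (2 : R) • N' := by
      rw [pow_two, mul_add, mul_one, add_mul, one_mul, hN'N', add_zero, two_smul, add_assoc]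
    rw [e, add_mul, one_mul, smul_mul_assoc, mul_add, mul_one, hSN']
  have hεR : (ε : R) * (ε : R) = 1 := by exact_mod_cast congrArg (Int.cast : ℤ → R) hε
  have hεZ : (ε : ZMod p) * (ε : ZMod p) = 1 := by
    exact_mod_cast congrArg (Int.cast : ℤ → ZMod p) hε
  have h2c : ((2 : ℕ) : R) = 2 := Nat.cast_ofNat
  have hc0 : π0 (Sg.trace - (ε : R) * (((2 : ℕ) : R) + 1)) = 0 := by
    rw [map_sub, pi0_trace hlift, htr, map_mul, map_add, map_natCast, map_one, map_intCast]
    push_cast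
    ring
  obtain ⟨f1, f2, b', g', Q, Q', F⟩ := Raise.exists_stForm hnil' Sg (1 + N') 2 (ε : R) hεR D.two
    (by rw [h2c]; exact D.two)
    (by
      rw [h2c]
      have : (1 : R) - 2 = -1 := by ring
      rw [this]
      exact isUnit_one.neg)
    hrel' hunip (by rw [h2c]; exact D.detF) ((hmax _).2 hc0)
  set n : M₂ R := Q' * (Tu - 1) * Q with hn
  have hwn : w • n = !![0, b'; g', 0] := by
    have h1 := F.tu_sub
    rw [add_sub_cancel_left] at h1
    calc w • n = Q' * N' * Q := by simp only [hn, hN', mul_smul_comm, smul_mul_assoc]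
      _ = Q' * (Q * !![0, b'; g', 0] * Q') * Q := by rw [h1]
      _ = (Q' * Q) * !![0, b'; g', 0] * (Q' * Q) := by simp only [mul_assoc]
      _ = !![0, b'; g', 0] := by rw [F.Q'Q, one_mul, mul_one]
  have h00 : w * n 0 0 = 0 := by simpa using congrFun (congrFun hwn 0) 0
  have h01 : w * n 0 1 = b' := by simpa using congrFun (congrFun hwn 0) 1
  have h10 : w * n 1 0 = g' := by simpa using congrFun (congrFun hwn 1) 0
  have h11 : w * n 1 1 = 0 := by simpa using congrFun (congrFun hwn 1) 1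
  set b : R := n 0 1 with hb
  set β : R := w * w * b with hβ
  have hβ' : β = w * b' := by rw [hβ, mul_assoc, h01]
  have hf1 : (f1 - (ε : R) * 2) * b' = 0 := by
    have := F.f1b
    rwa [h2c] at this
  have hf2 : (f2 - (ε : R)) * b' = 0 := by
    obtain ⟨c, hc⟩ := Ideal.mem_span_singleton'.1 F.m2
    rw [← hc, mul_assoc, mul_comm _ b', F.bc, mul_zero]
  -- the two congruences
  have hTuQ : Tu = Q * (1 + n) * Q' := by
    rw [mul_add, mul_one, add_mul, F.QQ', hn]
    have : Q * (Q' * (Tu - 1) * Q) * Q' = (Q * Q') * (Tu - 1) * (Q * Q') := by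
      simp only [mul_assoc]
    rw [this, F.QQ', one_mul, mul_one, add_sub_cancel]
  have cT : β • Tu = β • (Q * !![1, b; 0, 1] * Q') := by
    rw [hTuQ, smul_conj, smul_conj]
    congr 2
    ext i j
    fin_cases i <;> fin_cases j
    · simp only [Fin.zero_eta, Fin.isValue, Matrix.smul_apply, Matrix.add_apply,
        Matrix.one_apply_eq, smul_eq_mul, Matrix.of_apply, Matrix.cons_val', Matrix.cons_val_zero,
        Matrix.cons_val_fin_one]
      rw [hβ']
      linear_combination b' * h00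
    · simp [hb]
    · simp only [Fin.mk_one, Fin.isValue, Fin.zero_eta, Matrix.smul_apply, Matrix.add_apply,
        ne_eq, one_ne_zero, not_false_eq_true, Matrix.one_apply_ne, zero_add, smul_eq_mul,
        Matrix.of_apply, Matrix.cons_val', Matrix.cons_val_zero, Matrix.cons_val_fin_one,
        Matrix.cons_val_one, mul_zero]
      rw [hβ']
      linear_combination b' * h10 + F.bg
    · simp only [Fin.mk_one, Fin.isValue, Matrix.smul_apply, Matrix.add_apply,
        Matrix.one_apply_eq, smul_eq_mul, Matrix.of_apply, Matrix.cons_val', Matrix.cons_val_one,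
        Matrix.cons_val_fin_one]
      rw [hβ']
      linear_combination b' * h11
  have cS : β • Sg = β • (Q * !![(ε : R) * 2, 0; 0, (ε : R)] * Q') := by
    conv_lhs => rw [F.sg]
    rw [smul_conj, smul_conj]
    congr 2
    ext i j
    fin_cases i <;> fin_cases j
    · simp only [Fin.zero_eta, Fin.isValue, Matrix.smul_apply, smul_eq_mul, Matrix.of_apply,
        Matrix.cons_val', Matrix.cons_val_zero, Matrix.cons_val_fin_one]
      rw [hβ']
      linear_combination w * hf1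
    · simp
    · simp
    · simp only [Fin.mk_one, Fin.isValue, Matrix.smul_apply, smul_eq_mul, Matrix.of_apply,
        Matrix.cons_val', Matrix.cons_val_one, Matrix.cons_val_fin_one]
      rw [hβ']
      linear_combination w * hf2
  have hA0 := liesOverPrime_primeLocalPlace twoP
  -- the identities at the place `primeLocalPlace twoP`
  have key0 : ∀ σ : GQ, (primeLocalPlace twoP).IsFrobeniusAt σ 2 → ∀ ι ∈ inert twoP,
      β • ((ρ σ - ((ε : R) * (2 : ℕ)) • (1 : M₂ R)) * (ρ ι - (1 : R) • (1 : M₂ R))) = 0 ∧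
      β • ((ρ ι - (1 : R) • (1 : M₂ R)) * (ρ σ - (ε : R) • (1 : M₂ R))) = 0 ∧
      β • ((ρ σ - ((ε : R) * (2 : ℕ)) • (1 : M₂ R)) * (ρ σ - (ε : R) • (1 : M₂ R))) = 0 := by
    intro σ hσ ι hι
    obtain ⟨j, hj⟩ := D.gen ι hι
    obtain ⟨k, hk⟩ := D.gen _ (Places.inv_mul_mem_inertia D.frob hσ)
    have hσ' : ρ σ = Sg * Tu ^ k := by
      rw [← hk, hSg, ← map_mul, mul_inv_cancel_left]
    have c1 : β • ρ σ = β • ((Q * !![(ε : R) * 2, 0; 0, (ε : R)] * Q') *
        (Q * !![1, b; 0, 1] * Q') ^ k) := by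
      rw [hσ']
      exact smul_mul_congr cS (smul_pow_congr cT k)
    have c2 : β • ρ ι = β • (Q * !![1, b; 0, 1] * Q') ^ j := by
      rw [hj]
      exact smul_pow_congr cT j
    obtain ⟨a1, a2, a3⟩ := st_alg F.Q'Q F.QQ' (ε : R) b k j
    rw [h2c]
    refine ⟨?_, ?_, ?_⟩
    · rw [smul_mul_congr (smul_sub_congr c1 _) (smul_sub_congr c2 _), a1, smul_zero]
    · rw [smul_mul_congr (smul_sub_congr c2 _) (smul_sub_congr c1 _), a2, smul_zero]
    · rw [smul_mul_congr (smul_sub_congr c1 _) (smul_sub_congr c1 _), a3, smul_zero]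
  have hent : ∀ i j, (Tu - 1) i j ∈ RingHom.ker π0 := by
    intro i j
    rw [RingHom.mem_ker, Matrix.sub_apply, map_sub]
    have h2 : π0 (Tu i j) = rbar0 τ i j := by rw [← hlift]; rfl
    rw [h2, hur]
    by_cases hij : i = j
    · subst hij; simp
    · simp [Matrix.one_apply_ne hij]
  refine ⟨b, Q', ?_, F.isUnit_map π0, ?_, ?_⟩
  · exact Raise.mul_entries_mem _ _ _ (entries_mul_mem _ _ _ hent) 0 1
  · intro A hA σ hσ ι hι
    obtain ⟨g, rfl⟩ := Bridge.exists_smul_eq Nat.prime_two hA0 hA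
    rw [Bridge.mem_inertia_smul_iff Nat.prime_two hA0] at hι
    rw [Bridge.isFrobeniusAt_smul_iff Nat.prime_two hA0] at hσ
    obtain ⟨a1, a2, a3⟩ := key0 _ hσ _ hι
    exact ⟨smul_conj_eq_zero ρ g σ ι a1, smul_conj_eq_zero ρ g ι σ a2,
      smul_conj_eq_zero ρ g σ σ a3⟩
  · intro G hG hst I hbI
    have hconj : ∀ X : M₂ R, (∀ y ∈ G, Φ X y = 0) → ∀ i j, (Q' * X * Q) i j ∈ G.annihilator := by
      intro X hX
      refine H.entry_mem_ann hadj G hG fun y hy => ?_
      rw [map_mul, map_mul, Module.End.mul_apply, Module.End.mul_apply,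
        hX _ (H.phi_mem hadj G hG Q y hy), map_zero]
    have c1 : (ε : R) * ((2 : ℕ) : R) = ((ε * ((2 : ℕ) : ℤ) : ℤ) : R) := by push_cast; ring
    have k1 : ∀ y ∈ G, Φ ((Sg - ((ε : R) * (2 : ℕ)) • (1 : M₂ R)) *
        (Tu - (1 : R) • (1 : M₂ R))) y = 0 := by
      intro y hy
      rw [H.phi_sub_mul_sub, one_smul, c1, Int.cast_smul_eq_zsmul, (hst y hy).1, sub_self]
    have k2 : ∀ y ∈ G, Φ ((Tu - (1 : R) • (1 : M₂ R)) * (Sg - (ε : R) • (1 : M₂ R))) y = 0 := by
      intro y hy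
      rw [H.phi_sub_mul_sub, one_smul, Int.cast_smul_eq_zsmul, (hst y hy).2.1, sub_self]
    have k3 : ∀ y ∈ G, Φ ((Sg - ((ε : R) * (2 : ℕ)) • (1 : M₂ R)) *
        (Sg - (ε : R) • (1 : M₂ R))) y = 0 := by
      intro y hy
      rw [H.phi_sub_mul_sub, c1, Int.cast_smul_eq_zsmul, Int.cast_smul_eq_zsmul, (hst y hy).2.2,
        sub_self]
    have e1 : Q' * ((Sg - ((ε : R) * (2 : ℕ)) • (1 : M₂ R)) * (Tu - (1 : R) • (1 : M₂ R))) * Q =
        !![f1 - (ε : R) * (2 : ℕ), 0; 0, f2 - (ε : R) * (2 : ℕ)] * n := by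
      rw [F.sg_sub, one_smul, hn]
      calc Q' * (Q * !![f1 - (ε : R) * (2 : ℕ), 0; 0, f2 - (ε : R) * (2 : ℕ)] * Q' * (Tu - 1)) * Q
          = (Q' * Q) * !![f1 - (ε : R) * (2 : ℕ), 0; 0, f2 - (ε : R) * (2 : ℕ)] *
            (Q' * (Tu - 1) * Q) := by simp only [mul_assoc]
        _ = _ := by rw [F.Q'Q, one_mul]
    have e2 : Q' * ((Tu - (1 : R) • (1 : M₂ R)) * (Sg - (ε : R) • (1 : M₂ R))) * Q =
        n * !![f1 - (ε : R), 0; 0, f2 - (ε : R)] := by
      rw [F.sg_sub, one_smul, hn]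
      calc Q' * ((Tu - 1) * (Q * !![f1 - (ε : R), 0; 0, f2 - (ε : R)] * Q')) * Q
          = (Q' * (Tu - 1) * Q) * !![f1 - (ε : R), 0; 0, f2 - (ε : R)] * (Q' * Q) := by
            simp only [mul_assoc]
        _ = _ := by rw [F.Q'Q, mul_one]
    have e3 : Q' * ((Sg - ((ε : R) * (2 : ℕ)) • (1 : M₂ R)) * (Sg - (ε : R) • (1 : M₂ R))) * Q =
        !![f1 - (ε : R) * (2 : ℕ), 0; 0, f2 - (ε : R) * (2 : ℕ)] *
          !![f1 - (ε : R), 0; 0, f2 - (ε : R)] := by
      rw [F.sg_sub, F.sg_sub, F.conj_mul]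
      calc Q' * (Q * (!![f1 - (ε : R) * (2 : ℕ), 0; 0, f2 - (ε : R) * (2 : ℕ)] *
            !![f1 - (ε : R), 0; 0, f2 - (ε : R)]) * Q') * Q
          = (Q' * Q) * (!![f1 - (ε : R) * (2 : ℕ), 0; 0, f2 - (ε : R) * (2 : ℕ)] *
            !![f1 - (ε : R), 0; 0, f2 - (ε : R)]) * (Q' * Q) := by simp only [mul_assoc]
        _ = _ := by rw [F.Q'Q, one_mul, mul_one]
    have hu1 : IsUnit (f1 - (ε : R)) := by
      refine hloc _ ?_
      have h1 : π0 (f1 - (ε : R) * (2 : ℕ)) = 0 := by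
        have hle : Ideal.span {Sg.trace - (ε : R) * (((2 : ℕ) : R) + 1)} ≤ RingHom.ker π0 :=
          (Ideal.span_singleton_le_iff_mem _).2 hc0
        exact hle F.m1
      have h2 : π0 (f1 - (ε : R)) = (ε : ZMod p) := by
        have : f1 - (ε : R) = (f1 - (ε : R) * (2 : ℕ)) + (ε : R) := by push_cast; ring
        rw [this, map_add, h1, zero_add, map_intCast]
      rw [h2]
      intro h0
      rw [h0, mul_zero] at hεZ
      exact zero_ne_one hεZ
    have m1 := hconj _ k1
    have m2 := hconj _ k2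
    have m3 := hconj _ k3
    rw [e1] at m1
    rw [e2] at m2
    rw [e3] at m3
    have hn10 : n 1 0 ∈ G.annihilator := by
      have := m1 1 0
      simp only [Matrix.mul_apply, Fin.sum_univ_two, Matrix.of_apply, Matrix.cons_val',
        Matrix.cons_val_zero, Matrix.cons_val_one, Matrix.cons_val_fin_one, zero_mul,
        zero_add] at this
      exact (Ideal.unit_mul_mem_iff_mem _ F.u2).1 this
    have hn11 : n 1 1 ∈ G.annihilator := by
      have := m1 1 1
      simp only [Matrix.mul_apply, Fin.sum_univ_two, Matrix.of_apply, Matrix.cons_val',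
        Matrix.cons_val_zero, Matrix.cons_val_one, Matrix.cons_val_fin_one, zero_mul,
        zero_add] at this
      exact (Ideal.unit_mul_mem_iff_mem _ F.u2).1 this
    have hn00 : n 0 0 ∈ G.annihilator := by
      have := m2 0 0
      simp only [Matrix.mul_apply, Fin.sum_univ_two, Matrix.of_apply, Matrix.cons_val',
        Matrix.cons_val_zero, Matrix.cons_val_one, Matrix.cons_val_fin_one, mul_zero,
        add_zero] at this
      exact (Ideal.mul_unit_mem_iff_mem _ hu1).1 this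
    have hf1a : f1 - (ε : R) * (2 : ℕ) ∈ G.annihilator := by
      have := m3 0 0
      simp only [Matrix.mul_apply, Fin.sum_univ_two, Matrix.of_apply, Matrix.cons_val',
        Matrix.cons_val_zero, Matrix.cons_val_one, Matrix.cons_val_fin_one, mul_zero,
        add_zero] at this
      exact (Ideal.mul_unit_mem_iff_mem _ hu1).1 this
    have hf2a : f2 - (ε : R) ∈ G.annihilator := by
      have := m3 1 1
      simp only [Matrix.mul_apply, Fin.sum_univ_two, Matrix.of_apply, Matrix.cons_val',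
        Matrix.cons_val_zero, Matrix.cons_val_one, Matrix.cons_val_fin_one, zero_mul,
        zero_add] at this
      exact (Ideal.unit_mul_mem_iff_mem _ F.u2).1 this
    obtain ⟨N₀, hN₀, htors⟩ := D.tors
    have hJ : ∀ x ∈ G.annihilator, x ∈ G.annihilator ⊔ I := fun x hx => Ideal.mem_sup_left hx
    have hT : ConjConst ℤ (G.annihilator ⊔ I) Q' Tu := by
      refine ⟨1, ?_⟩
      have e4 : (1 : M₂ ℤ).map (algebraMap ℤ R) = 1 := map_one (algebraMap ℤ R).mapMatrix
      have e5 : Q' * Tu - 1 * Q' = n * Q' := by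
        have : Q' * (Tu - 1) * Q * Q' = Q' * (Tu - 1) := by rw [mul_assoc, F.QQ', mul_one]
        rw [one_mul, hn, this, mul_sub, mul_one]
      rw [e4, e5]
      refine Raise.mul_entries_mem _ _ _ fun i k => ?_
      fin_cases i <;> fin_cases k
      · exact hJ _ hn00
      · exact Ideal.mem_sup_right hbI
      · exact hJ _ hn10
      · exact hJ _ hn11
    have hF : ConjConst ℤ (G.annihilator ⊔ I) Q' Sg := by
      refine ⟨!![ε * 2, 0; 0, ε], ?_⟩
      have e4 : Q' * Sg = !![f1, 0; 0, f2] * Q' := by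
        conv_lhs => rw [F.sg]
        rw [← mul_assoc, ← mul_assoc, F.Q'Q, one_mul]
      have e5 : (!![ε * 2, 0; 0, ε] : M₂ ℤ).map (algebraMap ℤ R) =
          !![(ε : R) * 2, 0; 0, (ε : R)] := by
        ext i j
        fin_cases i <;> fin_cases j <;> simp
      rw [e4, e5, ← sub_mul]
      refine Raise.mul_entries_mem _ _ _ fun i k => ?_
      rw [h2c] at hf1a
      fin_cases i <;> fin_cases k
      · simpa using hJ _ hf1a
      · simp
      · simp
      · simpa using hJ _ hf2a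
    exact conjConst_of_gens D.cont twoP N₀ hN₀ htors (fun σ hσ => by
      obtain ⟨k, hk⟩ := D.gen σ hσ
      rw [hk]
      exact hT.pow k) D.frob hF

end Gen2

end Fermat.Agent.ML.At2
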