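import Fermat.Agent.ML.At2.Cell2

/-!
# ML / AT-2 / Cell2StP : [CELL-2] (C)  the prime `2` after it has been raised (`2 ∈ P`, sign `ε`)

Proof of the stub `Gen2.exists_st` of the skeleton `At2/Cell2St.lean` (same statement), under the name `Gen2.exists_st'`.

`w = z₂ + 3 = tr ρ(τ) + 1`, `Tu' = 1 + w (ρ(τ) - 1)` : `(Tu' - 1)² = 0`, `ρ(φ) Tu' = Tu'² ρ(φ)`, so `Raise.exists_stForm` applies to
`(ρ(φ), Tu')`.   `n = Q' (ρ(τ) - 1) Q`, `b = n 0 1`.   Factor `w² b`, variable `b`.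
-/

set_option autoImplicit false
set_option linter.unusedSectionVars false
set_option linter.unusedVariables false

noncomputable section

namespace Fermat.Agent.ML.At2

open Matrix Fermat.Agent.RIB Fermat.Agent.ML Fermat.Agent.S56 ExtCitation
open CFT (decomp)

local notation "Qbar" => AlgebraicClosure ℚ
local notation "M₂" => Matrix (Fin 2) (Fin 2)

namespace St2P

section Alg

variable {R : Type*} [CommRing R]

theorem kl {β : R} {X : M₂ R} (h : β • X = 0) (A : M₂ R) : β • (A * X) = 0 := by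
  rw [← mul_smul_comm, h, mul_zero]

theorem kr {β : R} {X : M₂ R} (h : β • X = 0) (A : M₂ R) : β • (X * A) = 0 := by
  rw [← smul_mul_assoc, h, zero_mul]

theorem ka {β : R} {X Y : M₂ R} (h : β • X = 0) (h' : β • Y = 0) : β • (X + Y) = 0 := by
  rw [smul_add, h, h', add_zero]

/-- from the four relations for `(F, n₀)` to the three relations for `(F X, Y)`. -/
theorem core {F n₀ E1 E2 : M₂ R} {β : R} (hE2 : E2 * F = F * E2) (hE1 : n₀ * E1 = E1 * n₀)
    (K1 : β • ((F - E2) * n₀) = 0) (K2 : β • (n₀ * (F - E1)) = 0)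
    (K3 : β • ((F - E2) * (F - E1)) = 0) (K4 : β • (n₀ * n₀) = 0)
    {X Y S S' : M₂ R} (hY1 : Y - 1 = n₀ * S) (hY2 : Y - 1 = S * n₀) (hX1 : X - 1 = n₀ * S')
    (hX2 : X - 1 = S' * n₀) :
    β • ((F * X - E2) * (Y - 1)) = 0 ∧ β • ((Y - 1) * (F * X - E1)) = 0 ∧
      β • ((F * X - E2) * (F * X - E1)) = 0 := by
  have hFX1 : F * X = F + F * (n₀ * S') := by rw [← hX1]; noncomm_ring
  have hFX2 : F * X = F + F * (S' * n₀) := by rw [← hX2]; noncomm_ring
  have K5 : β • (n₀ * F * n₀) = 0 := by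
    have e : n₀ * F * n₀ = n₀ * (F - E1) * n₀ + E1 * (n₀ * n₀) := by
      rw [← mul_assoc, ← hE1]; noncomm_ring
    rw [e]
    exact ka (kr K2 _) (kl K4 _)
  refine ⟨?_, ?_, ?_⟩
  · have e : (F * X - E2) * (Y - 1) = F * S' * (n₀ * n₀) * S + (F - E2) * n₀ * S := by
      rw [hFX2, hY1]; noncomm_ring
    rw [e]
    exact ka (kr (kl K4 _) _) (kr K1 _)
  · have e : (Y - 1) * (F * X - E1) = S * (n₀ * F * n₀) * S' + S * (n₀ * (F - E1)) := by
      rw [hFX1, hY2]; noncomm_ring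
    rw [e]
    exact ka (kr (kl K5 _) _) (kl K2 _)
  · have e : (F * X - E2) * (F * X - E1) = F * S' * (n₀ * F * n₀) * S' +
        F * S' * (n₀ * (F - E1)) + F * ((F - E2) * n₀) * S' + (F - E2) * (F - E1) := by
      have e1 : (F - E2) * F = F * (F - E2) := by rw [sub_mul, mul_sub, hE2]
      calc (F * X - E2) * (F * X - E1)
          = (F * (S' * n₀) + (F - E2)) * (F * (n₀ * S') + (F - E1)) := by
            have a1 : F * X - E2 = F * (S' * n₀) + (F - E2) := by rw [hFX2]; noncomm_ring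
            have a2 : F * X - E1 = F * (n₀ * S') + (F - E1) := by rw [hFX1]; noncomm_ring
            rw [a1, a2]
        _ = F * S' * (n₀ * F * n₀) * S' + F * S' * (n₀ * (F - E1)) + ((F - E2) * F) * n₀ * S' +
            (F - E2) * (F - E1) := by noncomm_ring
        _ = _ := by rw [e1]; noncomm_ring
    rw [e]
    exact ka (ka (ka (kr (kl K5 _) _) (kl K2 _)) (kr (kl K1 _) _)) K3

theorem f2b {F Tu Q Q' : M₂ R} {q : ℕ} {e f1 f2 b' g' : R}
    (S : Raise.StForm F Tu q e f1 f2 b' g' Q Q') : (f2 - e) * b' = 0 := by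
  obtain ⟨w, hw⟩ := Ideal.mem_span_singleton'.1 S.m2
  rw [← hw, mul_assoc, mul_comm _ b', S.bc, mul_zero]

/-- the three relations for `(F, N₀)`, multiplied by `w² b`. -/
theorem keys {F N₀ n Tu Q Q' : M₂ R} {w e f1 f2 b' g' : R}
    (S : Raise.StForm F Tu 2 e f1 f2 b' g' Q Q') (hN : N₀ = Q * n * Q')
    (hw : w • n = !![0, b'; g', 0]) :
    (w * w * n 0 1) • ((F - (e * ((2 : ℕ) : R)) • (1 : M₂ R)) * N₀) = 0 ∧
    (w * w * n 0 1) • (N₀ * (F - e • (1 : M₂ R))) = 0 ∧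
    (w * w * n 0 1) • ((F - (e * ((2 : ℕ) : R)) • (1 : M₂ R)) * (F - e • (1 : M₂ R))) = 0 := by
  have h00 : w * n 0 0 = 0 := by simpa using congrFun (congrFun hw 0) 0
  have h01 : w * n 0 1 = b' := by simpa using congrFun (congrFun hw 0) 1
  have h10 : w * n 1 0 = g' := by simpa using congrFun (congrFun hw 1) 0
  have h11 : w * n 1 1 = 0 := by simpa using congrFun (congrFun hw 1) 1
  have k1 := S.f1b
  have k2 := f2b S
  have k3 := S.bg
  subst h01 h10
  have conj0 : ∀ (β : R) (M : M₂ R), β • M = 0 → β • (Q * M * Q') = 0 := by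
    intro β M h
    rw [← Matrix.smul_mul, ← Matrix.mul_smul, h, mul_zero, zero_mul]
  refine ⟨?_, ?_, ?_⟩
  · rw [S.sg_sub, hN, S.conj_mul]
    refine conj0 _ _ ?_
    ext i j
    fin_cases i <;> fin_cases j <;>
      simp only [Matrix.smul_apply, Matrix.mul_apply, Fin.sum_univ_two, Matrix.zero_apply,
        smul_eq_mul] <;> simp
    · linear_combination (w * n 0 0) * k1
    · linear_combination (w * n 0 1) * k1
    · linear_combination (f2 - e * 2) * k3
    · linear_combination (w * n 0 1 * (f2 - e * 2)) * h11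
  · rw [S.sg_sub, hN, S.conj_mul]
    refine conj0 _ _ ?_
    ext i j
    fin_cases i <;> fin_cases j <;>
      simp only [Matrix.smul_apply, Matrix.mul_apply, Fin.sum_univ_two, Matrix.zero_apply,
        smul_eq_mul] <;> simp
    · linear_combination (w * n 0 1 * (f1 - e)) * h00
    · linear_combination (w * n 0 1) * k2
    · linear_combination (f1 - e) * k3
    · linear_combination (w * n 0 1 * (f2 - e)) * h11
  · rw [S.sg_sub, S.sg_sub, S.conj_mul]
    refine conj0 _ _ ?_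
    ext i j
    fin_cases i <;> fin_cases j <;>
      simp only [Matrix.smul_apply, Matrix.mul_apply, Fin.sum_univ_two, Matrix.zero_apply,
        smul_eq_mul] <;> simp
    · linear_combination (w * (f1 - e)) * k1
    · linear_combination (w * (f2 - e * 2)) * k2

end Alg

theorem rel_of_sq {R : Type*} [CommRing R] {Np Ph : M₂ R} (h1 : Np * Np = 0) (h2 : Ph * Np = (2 : R) • (Np * Ph)) :
    Ph * (1 + Np) = (1 + Np) ^ 2 * Ph := by
  have e : (1 + Np) ^ 2 = 1 + (2 : R) • Np := by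
    rw [pow_two, add_mul, mul_add, mul_add, one_mul, one_mul, mul_one, h1, add_zero, two_smul,
      add_assoc]
  rw [e, mul_add, mul_one, h2, add_mul, one_mul, smul_mul_assoc]

end St2P

namespace Gen2

variable {p : ℕ} [Fact p.Prime] {T : Finset ℕ} {θ : ℕ → ℤ} {rbar0 : GQ →* M₂ (ZMod p)}
  {R V : Type} [CommRing R] [AddCommGroup V] [Module R V] [DistribMulAction GQ V]
  {π0 : R →+* ZMod p} {ρ : GQ →* M₂ R} {Φ : M₂ R →ₐ[R] Module.End R V} {φ τ : GQ}

/-- **(C)** -/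
theorem exists_st' (D : Gen2 ρ φ τ) (H : RhoAct ρ Φ) (hadj : Algebra.adjoin R (Set.range ρ) = ⊤)
    (hlift : ∀ σ, (ρ σ).map π0 = rbar0 σ) (hloc : ∀ a : R, π0 a ≠ 0 → IsUnit a)
    {N : ℕ} (hnil : RingHom.ker π0 ^ N = ⊥) (hur : rbar0 τ = 1)
    (ε : ℤ) (hε : ε * ε = 1) (htr : (rbar0 φ).trace = 3 * (ε : ZMod p)) :
    ∃ (b : R) (M : M₂ R), π0 b = 0 ∧ IsUnit (M.map π0) ∧
      (∀ A : ValuationSubring Qbar, A.LiesOverPrime 2 → ∀ σ : GQ, A.IsFrobeniusAt σ 2 →
        ∀ ι ∈ A.inertiaSubgroupIn ℚ,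
        (((ρ τ).trace + 1) * ((ρ τ).trace + 1) * b) •
          ((ρ σ - ((ε : R) * (2 : ℕ)) • (1 : M₂ R)) * (ρ ι - (1 : R) • (1 : M₂ R))) = 0 ∧
        (((ρ τ).trace + 1) * ((ρ τ).trace + 1) * b) •
          ((ρ ι - (1 : R) • (1 : M₂ R)) * (ρ σ - (ε : R) • (1 : M₂ R))) = 0 ∧
        (((ρ τ).trace + 1) * ((ρ τ).trace + 1) * b) •
          ((ρ σ - ((ε : R) * (2 : ℕ)) • (1 : M₂ R)) * (ρ σ - (ε : R) • (1 : M₂ R))) = 0) ∧
      ∀ G : Submodule R V, (∀ g : GQ, ∀ x ∈ G, g • x ∈ G) →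
        (∀ x ∈ G, φ • (τ • x - x) = (ε * (2 : ℕ)) • (τ • x - x) ∧
          τ • (φ • x - ε • x) = φ • x - ε • x ∧
          φ • (φ • x - ε • x) = (ε * (2 : ℕ)) • (φ • x - ε • x)) →
        ∀ I : Ideal R, b ∈ I → ∀ σ ∈ decomp twoP, ConjConst ℤ (G.annihilator ⊔ I) M (ρ σ) := by
  haveI : Nontrivial R := π0.domain_nontrivial
  have hunit : ∀ x : R, π0 x ≠ 0 ↔ IsUnit x := fun x => ⟨hloc x, fun h => (h.map π0).ne_zero⟩
  haveI : IsLocalRing R := IsLocalRing.of_nonunits_add (by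
    intro a b ha hb
    rw [mem_nonunits_iff, ← hunit, not_not] at ha hb ⊢
    rw [map_add, ha, hb, add_zero])
  have hmax : ∀ z : R, z ∈ IsLocalRing.maximalIdeal R ↔ π0 z = 0 := by
    intro z
    rw [IsLocalRing.mem_maximalIdeal, mem_nonunits_iff, ← hunit, not_not]
  have hnil' : ∀ z ∈ IsLocalRing.maximalIdeal R, IsNilpotent z := by
    intro z hz
    refine ⟨N, ?_⟩
    have h1 : z ^ N ∈ RingHom.ker π0 ^ N :=
      Ideal.pow_mem_pow ((RingHom.mem_ker).2 ((hmax z).1 hz)) N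
    rw [hnil] at h1
    exact h1
  have hA0 := liesOverPrime_primeLocalPlace twoP
  set w : R := (ρ τ).trace + 1 with hw
  have hεR : (ε : R) * (ε : R) = 1 := by exact_mod_cast congrArg (Int.cast : ℤ → R) hε
  have hεp : (ε : ZMod p) * (ε : ZMod p) = 1 := by
    exact_mod_cast congrArg (Int.cast : ℤ → ZMod p) hε
  have hNp : (w • (ρ τ - 1)) * (w • (ρ τ - 1)) = 0 := Loc.Np_mul_Np D.rel D.detT D.detF_unit
  have hunip : ((1 + w • (ρ τ - 1)) - 1) * ((1 + w • (ρ τ - 1)) - 1) = 0 := by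
    rw [add_sub_cancel_left]
    exact hNp
  have hrel : ρ φ * (1 + w • (ρ τ - 1)) = (1 + w • (ρ τ - 1)) ^ 2 * ρ φ :=
    St2P.rel_of_sq hNp (Loc.Ph_mul_Np D.rel D.detT D.detF_unit)
  have h2u : IsUnit (((2 : ℕ) : R)) := by
    have := D.two
    exact_mod_cast this
  have h1q : IsUnit (1 - ((2 : ℕ) : R)) := by
    have e : (1 : R) - ((2 : ℕ) : R) = -1 := by push_cast; ring
    rw [e]
    exact isUnit_one.neg
  have hc0 : π0 ((ρ φ).trace - (ε : R) * (((2 : ℕ) : R) + 1)) = 0 := by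
    rw [map_sub, pi0_trace hlift, htr, map_mul, map_add, map_intCast, map_natCast, map_one]
    push_cast
    ring
  obtain ⟨f1, f2, b', g', Q, Q', S⟩ := Raise.exists_stForm hnil' (ρ φ) (1 + w • (ρ τ - 1)) 2
    (ε : R) hεR D.two h2u h1q hrel hunip (by rw [D.detF]; norm_num) ((hmax _).2 hc0)
  set n : M₂ R := Q' * (ρ τ - 1) * Q with hn
  have hN : ρ τ - 1 = Q * n * Q' := by
    calc ρ τ - 1 = (Q * Q') * (ρ τ - 1) * (Q * Q') := by rw [S.QQ', one_mul, mul_one]
      _ = Q * n * Q' := by rw [hn]; simp only [mul_assoc]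
  have hwn : w • n = !![0, b'; g', 0] := by
    have h := S.tu_sub
    rw [add_sub_cancel_left] at h
    calc w • n = Q' * (w • (ρ τ - 1)) * Q := by rw [hn, mul_smul_comm, smul_mul_assoc]
      _ = (Q' * Q) * !![0, b'; g', 0] * (Q' * Q) := by rw [h]; simp only [mul_assoc]
      _ = _ := by rw [S.Q'Q, one_mul, mul_one]
  obtain ⟨K1, K2, K3⟩ := St2P.keys S hN hwn
  have K4 : (w * w * n 0 1) • ((ρ τ - 1) * (ρ τ - 1)) = 0 := by
    have h0 : w • ((ρ τ - 1) * (ρ τ - 1)) = 0 := D.unip0 D.mem D.mem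
    rw [show w * w * n 0 1 = (w * n 0 1) * w by ring, mul_smul, h0, smul_zero]
  have hk : ∀ i k, (ρ τ - 1) i k ∈ RingHom.ker π0 := by
    intro i k
    have h1 : π0 (ρ τ i k) = rbar0 τ i k := by rw [← hlift]; rfl
    rw [RingHom.mem_ker, Matrix.sub_apply, map_sub, h1, hur]
    by_cases hik : i = k
    · subst hik; simp
    · simp [Matrix.one_apply_ne hik]
  refine ⟨n 0 1, Q', ?_, S.isUnit_map π0, ?_, ?_⟩
  · exact Raise.mul_entries_mem _ _ _ (fun i k => entries_mul_mem _ Q' _ hk i k) 0 1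
  · -- the output
    have base : ∀ σ₀ ι₀ : GQ, (primeLocalPlace twoP).IsFrobeniusAt σ₀ 2 → ι₀ ∈ inert twoP →
        (w * w * n 0 1) •
          ((ρ σ₀ - ((ε : R) * (2 : ℕ)) • (1 : M₂ R)) * (ρ ι₀ - (1 : R) • (1 : M₂ R))) = 0 ∧
        (w * w * n 0 1) •
          ((ρ ι₀ - (1 : R) • (1 : M₂ R)) * (ρ σ₀ - (ε : R) • (1 : M₂ R))) = 0 ∧
        (w * w * n 0 1) •
          ((ρ σ₀ - ((ε : R) * (2 : ℕ)) • (1 : M₂ R)) * (ρ σ₀ - (ε : R) • (1 : M₂ R))) = 0 := by
      intro σ₀ ι₀ h1 h2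
      have h3 : φ⁻¹ * σ₀ ∈ inert twoP := Places.inv_mul_mem_inertia D.frob h1
      obtain ⟨S1, a1, a2⟩ := D.exists_fac h2
      obtain ⟨S2, c1, c2⟩ := D.exists_fac h3
      have e : ρ φ * ρ (φ⁻¹ * σ₀) = ρ σ₀ := by
        rw [← map_mul]
        congr 1
        group
      have := St2P.core (E1 := (ε : R) • (1 : M₂ R)) (E2 := ((ε : R) * (2 : ℕ)) • (1 : M₂ R))
        (by rw [smul_mul_assoc, mul_smul_comm, one_mul, mul_one])
        (by rw [smul_mul_assoc, mul_smul_comm, one_mul, mul_one]) K1 K2 K3 K4 a1 a2 c1 c2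
      rw [e] at this
      rw [one_smul]
      exact this
    intro A hA σ hσ ι hι
    obtain ⟨g, rfl⟩ := Bridge.exists_smul_eq Nat.prime_two hA0 hA
    rw [Bridge.mem_inertia_smul_iff Nat.prime_two hA0] at hι
    have hσ' := (Bridge.isFrobeniusAt_smul_iff Nat.prime_two hA0).1 hσ
    obtain ⟨b1, b2, b3⟩ := base _ _ hσ' hι
    exact ⟨smul_conj_eq_zero ρ g σ ι b1, smul_conj_eq_zero ρ g ι σ b2,
      smul_conj_eq_zero ρ g σ σ b3⟩
  · -- strictness
    intro G hG hst I hb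
    have hPhi := H.phi_mem hadj G hG
    -- `c` kills `G`
    have hc : (ρ φ).trace - (ε : R) * (((2 : ℕ) : R) + 1) ∈ G.annihilator ⊔ I := by
      refine Ideal.mem_sup_left (Submodule.mem_annihilator.2 fun x hx => ?_)
      have h1 := (hst (φ⁻¹ • x) (hG _ x hx)).2.2
      rw [smul_inv_smul] at h1
      have e : (ε : R) * (((2 : ℕ) : R) + 1) = ((ε * 3 : ℤ) : R) := by push_cast; ring
      rw [sub_smul, H.trace_smul, D.detF, e, Int.cast_smul_eq_zsmul, ofNat_smul_eq_nsmul R 2]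
      rw [smul_sub, smul_sub, smul_comm φ ε, smul_inv_smul, smul_smul,
        show ε * (2 : ℕ) * ε = (ε * ε) * 2 by push_cast; ring, hε] at h1
      have h2 : φ • x = ε • x + ((ε * (2 : ℕ)) • x - ((1 : ℤ) * 2) • φ⁻¹ • x) :=
        sub_eq_iff_eq_add'.1 h1
      rw [h2]
      have e3 : (ε * 3 : ℤ) • x = ε • x + (ε * (2 : ℕ)) • x := by
        rw [← add_smul]
        congr 1
        push_cast
        ring
      have e4 : ((1 : ℤ) * 2) • φ⁻¹ • x = (2 : ℕ) • φ⁻¹ • x := by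
        rw [one_mul, ← natCast_zsmul]
        rfl
      rw [e3, e4]
      abel
    -- the entries of `n`
    have conjQ : ∀ X M : M₂ R, X = Q * M * Q' → Q' * X * Q = M := by
      intro X M h
      calc Q' * X * Q = (Q' * Q) * M * (Q' * Q) := by rw [h]; simp only [mul_assoc]
        _ = M := by rw [S.Q'Q, one_mul, mul_one]
    have hann : ∀ X : M₂ R, (∀ y ∈ G, Φ X y = 0) → ∀ i k, (Q' * X * Q) i k ∈ G.annihilator := by
      intro X hX i k
      refine H.entry_mem_ann hadj G hG (fun y hy => ?_) i k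
      rw [map_mul, map_mul, Module.End.mul_apply, Module.End.mul_apply, hX _ (hPhi Q y hy),
        map_zero]
    have c1 : (ε : R) * ((2 : ℕ) : R) = ((ε * (2 : ℕ) : ℤ) : R) := by push_cast; ring
    have hX1 : ∀ y ∈ G, Φ ((ρ φ - ((ε : R) * (2 : ℕ)) • (1 : M₂ R)) *
        (ρ τ - (1 : R) • (1 : M₂ R))) y = 0 := by
      intro y hy
      rw [H.phi_sub_mul_sub, c1, Int.cast_smul_eq_zsmul, one_smul, (hst y hy).1, sub_self]
    have hX2 : ∀ y ∈ G, Φ ((ρ τ - (1 : R) • (1 : M₂ R)) *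
        (ρ φ - (ε : R) • (1 : M₂ R))) y = 0 := by
      intro y hy
      rw [H.phi_sub_mul_sub, one_smul, Int.cast_smul_eq_zsmul, (hst y hy).2.1, sub_self]
    have m1 := hann _ hX1
    have m2 := hann _ hX2
    rw [conjQ _ (!![f1 - (ε : R) * (2 : ℕ), 0; 0, f2 - (ε : R) * (2 : ℕ)] * n) (by
      rw [one_smul, S.sg_sub, hN, S.conj_mul])] at m1
    rw [conjQ _ (n * !![f1 - (ε : R), 0; 0, f2 - (ε : R)]) (by
      rw [one_smul, S.sg_sub, hN, S.conj_mul])] at m2
    have hf1 : IsUnit (f1 - (ε : R)) := by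
      refine hloc _ ?_
      have h1 : π0 (f1 - (ε : R) * (2 : ℕ)) = 0 := by
        obtain ⟨r, hr⟩ := Ideal.mem_span_singleton'.1 S.m1
        rw [← hr, map_mul, hc0, mul_zero]
      have e : f1 - (ε : R) = (f1 - (ε : R) * (2 : ℕ)) + (ε : R) := by push_cast; ring
      rw [e, map_add, h1, zero_add, map_intCast]
      intro h0
      rw [h0, mul_zero] at hεp
      exact zero_ne_one hεp
    have n10 : n 1 0 ∈ G.annihilator := by
      have := m1 1 0
      simp only [Matrix.mul_apply, Fin.sum_univ_two] at this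
      simp at this
      exact (Ideal.unit_mul_mem_iff_mem _ S.u2).1 this
    have n11 : n 1 1 ∈ G.annihilator := by
      have := m1 1 1
      simp only [Matrix.mul_apply, Fin.sum_univ_two] at this
      simp at this
      exact (Ideal.unit_mul_mem_iff_mem _ S.u2).1 this
    have n00 : n 0 0 ∈ G.annihilator := by
      have := m2 0 0
      simp only [Matrix.mul_apply, Fin.sum_univ_two] at this
      simp at this
      exact (Ideal.mul_unit_mem_iff_mem _ hf1).1 this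
    have hnJ : ∀ i k, n i k ∈ G.annihilator ⊔ I := by
      intro i k
      fin_cases i <;> fin_cases k
      · exact Ideal.mem_sup_left n00
      · exact Ideal.mem_sup_right hb
      · exact Ideal.mem_sup_left n10
      · exact Ideal.mem_sup_left n11
    obtain ⟨N0, hN0, htors⟩ := D.tors
    refine conjConst_of_gens D.cont twoP N0 hN0 htors (fun σ hσ => ?_) D.frob
      (S.conjConst_frob _ hc)
    obtain ⟨k, hk'⟩ := D.gen σ hσ
    rw [hk']
    refine ConjConst.pow ⟨1, ?_⟩ k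
    have e2 : (1 : M₂ ℤ).map (algebraMap ℤ R) = 1 := map_one (algebraMap ℤ R).mapMatrix
    have e3 : Q' * ρ τ - 1 * Q' = n * Q' := by
      calc Q' * ρ τ - 1 * Q' = Q' * (ρ τ - 1) := by rw [mul_sub, mul_one, one_mul]
        _ = (Q' * Q) * n * Q' := by rw [hN]; simp only [mul_assoc]
        _ = n * Q' := by rw [S.Q'Q, one_mul]
    rw [e2, e3]
    exact Raise.mul_entries_mem _ _ _ hnJ

end Gen2

end Fermat.Agent.ML.At2
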