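import Fermat.Agent.ML.At2.Cell2Pol
import Fermat.Agent.ML.Raise.SoftTop

/-!
# ML / AT-2 / Cell2Top : [CELL-2]  the uniform package at `2` on `Lift.TopCtx` / `Rho.IsRhoK`

Frame : `X ≤ J₀(N)`, `R` acting on `X`, `ρ`, `Φ` with `IsRhoK`; the stage module is `Y ≤ X` (with `YS ⊇ Y` a set of `J₀(N)` on which the
cell conditions at `2` are known), the outputs are sets `G' ⊆ J₀(N)` all of whose elements are `β' • x₁`, `x₁ ∈ X`.
-/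

set_option autoImplicit false
set_option linter.unusedSectionVars false
set_option linter.unusedVariables false

noncomputable section

open ModularCurve

namespace Fermat.Agent.ML.At2.Top2

open Matrix Fermat.Agent.RIB Fermat.Agent.ML Fermat.Agent.S56 Fermat.Agent.S56.Gen ExtCitation
  Fermat.Agent.ML.Rho Fermat.Agent.ML.Lift Fermat.Agent.ML.ESide Fermat.Agent.ML.StepGen
  Fermat.Agent.ML.Raise
open CFT (decomp)

local notation "Qbar" => AlgebraicClosure ℚ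
local notation "M₂" => Matrix (Fin 2) (Fin 2)

/-- the hypotheses on the stage module `Y ≤ X` at the prime `2`. -/
structure In2 {p : ℕ} (rbar0 : GQ →* M₂ (ZMod p)) {N : ℕ} [NeZero N] {X : AddSubgroup (JZero N)}
    {R : Type} [CommRing R] [Module R ↥X] (P : Finset ℕ) (ε : ℤ) (Y : Submodule R ↥X) : Prop where
  gal : ∀ (g : GQ), ∀ y ∈ Y, ∀ y' : ↥X, (y' : JZero N) = g • (y : JZero N) → y' ∈ Y
  ur : ¬ Ram rbar0 2 → 2 ∉ P → LocUr 2 {x : JZero N | ∃ y ∈ Y, (y : JZero N) = x}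
  unip : Ram rbar0 2 ∨ 2 ∈ P → LocUnip 2 {x : JZero N | ∃ y ∈ Y, (y : JZero N) = x}
  st : 2 ∈ P → LocSt 2 ε {x : JZero N | ∃ y ∈ Y, (y : JZero N) = x}

/-- `In2` from the conditions on a set `YS ⊇ Y`. -/
theorem In2.of_set {p : ℕ} {rbar0 : GQ →* M₂ (ZMod p)} {N : ℕ} [NeZero N]
    {X : AddSubgroup (JZero N)} {R : Type} [CommRing R] [Module R ↥X] {P : Finset ℕ} {ε : ℤ}
    {Y : Submodule R ↥X}
    (hYG : ∀ (g : GQ), ∀ y ∈ Y, ∀ y' : ↥X, (y' : JZero N) = g • (y : JZero N) → y' ∈ Y)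
    {YS : Set (JZero N)} (hYS : ∀ y ∈ Y, (y : JZero N) ∈ YS)
    (hur : ¬ Ram rbar0 2 → 2 ∉ P → LocUr 2 YS) (hunip : Ram rbar0 2 ∨ 2 ∈ P → LocUnip 2 YS)
    (hst : 2 ∈ P → LocSt 2 ε YS) : In2 rbar0 P ε Y := by
  have hsub : {x : JZero N | ∃ y ∈ Y, (y : JZero N) = x} ⊆ YS := by
    rintro _ ⟨y, hy, rfl⟩
    exact hYS y hy
  exact ⟨hYG, fun h1 h2 => locUr_mono (hur h1 h2) hsub, fun h => locUnip_mono (hunip h) hsub,
    fun h => locSt_mono (hst h) hsub⟩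

/-- the package at `2`, on `X ≤ J₀(N)`. -/
structure PkgTop {p : ℕ} [Fact p.Prime] (rbar0 : GQ →* M₂ (ZMod p)) {N : ℕ} [NeZero N]
    (X : AddSubgroup (JZero N)) {R : Type} [CommRing R] [Module R ↥X] (π0 : R →+* ZMod p)
    (ρ : GQ →* M₂ R) (P : Finset ℕ) (ε : ℤ) (N2 : ℤ) (k2 : ℕ) (u dl : Fin k2 → R) (β2 : R)
    (dz : Fin k2 → ℤ) (P2 : MvPolynomial (Fin k2) ℤ) : Prop where
  k2_le : k2 ≤ 1
  pi0_u : ∀ j, π0 (u j) = 0
  dl_eq : ∀ j, dl j = ((dz j : ℤ) : R)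
  aux : MvPolynomial.aeval (fun j => (p : ℤ) * dz j) P2 = N2
  /-- [out] -/
  out_ur : ¬ Ram rbar0 2 → 2 ∉ P → ∀ β' : R, β2 ∣ β' → ∀ G' : Set (JZero N),
    (∀ x ∈ G', ∃ x₁ : ↥X, ((β' • x₁ : ↥X) : JZero N) = x) → LocUr 2 G'
  out_unip : Ram rbar0 2 ∨ 2 ∈ P → ∀ β' : R, β2 ∣ β' → ∀ G' : Set (JZero N),
    (∀ x ∈ G', ∃ x₁ : ↥X, ((β' • x₁ : ↥X) : JZero N) = x) → LocUnip 2 G'
  out_st : 2 ∈ P → ∀ β' : R, β2 ∣ β' → ∀ G' : Set (JZero N),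
    (∀ x ∈ G', ∃ x₁ : ↥X, ((β' • x₁ : ↥X) : JZero N) = x) → LocSt 2 ε G'
  /-- [val] -/
  val : ∀ Y : Submodule R ↥X, In2 rbar0 P ε Y →
    ∀ x ∈ Y, (∀ j, (u j - (p : R) * dl j) • x = 0) → β2 • x = N2 • x
  /-- [pol] -/
  pol : ∀ Y : Submodule R ↥X, In2 rbar0 P ε Y → β2 - MvPolynomial.aeval u P2 ∈ Y.annihilator
  /-- [gen] weight `1` -/
  weight : k2 = 1 →
    Nat.card ↥(B1loc (adRep (mapK (kM p) rbar0)) twoP) * Nat.card (kM p) ^ 1 ≤ Nat.card (kM p) ^ 3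
  /-- [gen] strictness -/
  strict : k2 = 1 → ∀ Y : Submodule R ↥X, In2 rbar0 P ε Y → ∀ I : Ideal R, (∀ j, u j ∈ I) →
    ∃ M : M₂ R, IsUnit (M.map π0) ∧ ∀ σ ∈ decomp twoP, ConjConst ℤ (Y.annihilator ⊔ I) M (ρ σ)

section VJ

variable {L m : ℕ} [NeZero L] [NeZero m] {R : Type} [CommRing R] [Algebra (ZMod m) R]
  {X : AddSubgroup (JZero L)} [Module R ↥X] {rE : GQ →* M₂ (ZMod m)}
  {πE : R →ₐ[ZMod m] ZMod m} {ρ : GQ →* M₂ R} {Φ : M₂ R →ₐ[R] Module.End R ↥X}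

theorem image_subVJ_subset' (Y : Submodule R ↥X) :
    ofVJ X rE πE ρ Φ '' ((subVJ rE πE ρ Φ Y).toAddSubgroup : Set (VJ X rE πE ρ Φ)) ⊆
      {x : JZero L | ∃ y ∈ Y, (y : JZero L) = x} := by
  rintro _ ⟨w, hw, rfl⟩
  exact ⟨_, hw.1, rfl⟩

/-- `LocUnip` on `Y` ⟹ `LocUnip` on `Y × 0 ≤ V`. -/
theorem locUnip_subVJ' (H : Fermat.Agent.ML.Rho.IsRhoK L m X rE πE ρ Φ) (Y : Submodule R ↥X)
    (hYG : ∀ (g : GQ), ∀ y ∈ Y, ∀ y' : ↥X, (y' : JZero L) = g • (y : JZero L) → y' ∈ Y)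
    {q : ℕ} (h : LocUnip q {x : JZero L | ∃ y ∈ Y, (y : JZero L) = x}) :
    LocUnip q (subVJ rE πE ρ Φ Y : Set (VJ X rE πE ρ Φ)) :=
  locUnip_of_map (ofVJ X rE πE ρ Φ) (ofVJ_gal H) (subVJ rE πE ρ Φ Y).toAddSubgroup
    (smul_mem_subVJ H hYG) (ofVJ_inj_subVJ Y) (locUnip_mono h (image_subVJ_subset' Y))

/-- every element of `G'` is the image of an element of `β' V`. -/
theorem subset_image_range {β : R} {G' : Set (JZero L)}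
    (hG' : ∀ x ∈ G', ∃ x₁ : ↥X, ((β • x₁ : ↥X) : JZero L) = x) :
    G' ⊆ ofVJ X rE πE ρ Φ '' (Set.range fun y : VJ X rE πE ρ Φ => β • y) := by
  intro x hx
  obtain ⟨x₁, h2⟩ := hG' x hx
  exact ⟨β • ((x₁ : XJ X ρ Φ), (0 : EMJ rE πE)), ⟨((x₁ : XJ X ρ Φ), (0 : EMJ rE πE)), rfl⟩, h2⟩

end VJ

section Top

variable {W : WeierstrassCurve ℤ} {p : ℕ} [Fact p.Prime]
  {b : Module.Basis (Fin 2) (ZMod p) (TorsW W p)} {K : ℕ}
  {B : Module.Basis (Fin 2) (ZMod (p ^ (K + 1))) (TorsW W (p ^ (K + 1)))} {N : ℕ} [NeZero N]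
  {X : AddSubgroup (JZero N)} {R : Type} [CommRing R] [Algebra (ZMod (p ^ (K + 1))) R]
  [Module R ↥X] {πE : R →ₐ[ZMod (p ^ (K + 1))] ZMod (p ^ (K + 1))} {ρ : GQ →* M₂ R}
  {Φ : M₂ R →ₐ[R] Module.End R ↥X}

/-- **[CELL-2]** on `TopCtx` / `IsRhoK`. -/
theorem exists_pkgTop {T : Finset ℕ} {θ : ℕ → ℤ} (EC : MCtx p T θ (rbarB b))
    (C : TopCtx W p b K B N X)
    (H : Fermat.Agent.ML.Rho.IsRhoK N (p ^ (K + 1)) X (rEB B) πE ρ Φ) [IsLocalRing R] [Finite R]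
    {φ : GQ} (hφ : (primeLocalPlace twoP).IsFrobeniusAt φ 2)
    (P : Finset ℕ) (ε : ℤ) (hε : ε * ε = 1)
    (hP : 2 ∈ P → ¬ Ram (rbarB b) 2 ∧ (rbarB b φ).trace = 3 * (ε : ZMod p)) :
    ∃ (k2 : ℕ) (u dl : Fin k2 → R) (β2 : R) (dz : Fin k2 → ℤ) (P2 : MvPolynomial (Fin k2) ℤ),
      PkgTop (rbarB b) X (pi0 πE) ρ P ε (N2val (rbarB b) P φ) k2 u dl β2 dz P2 ∧
      (k2 = 1 ↔ ¬ Ram (rbarB b) 2 ∧ (2 ∈ P ∨ (rbarB b φ).trace ^ 2 = 9)) := by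
  have hA := CFT.LS.liesOverPrime_primeLocalPlace twoP
  have h2p : (2 : ℕ) ≠ p := Ne.symm C.hp2
  obtain ⟨Nn, hNn⟩ : IsNilpotent (RingHom.ker (pi0 πE)) :=
    (Ideal.FG.isNilpotent_iff_le_nilradical (IsNoetherian.noetherian _)).2
      (TopCtx.ker_pi0_le_nilradical H)
  obtain ⟨k2, u, dl, β2, hpk, hk, dz, P2, hdl, haux, hpol⟩ :=
    exists_pkg2_pol (V := VJ X (rEB B) πE ρ Φ) EC H.rhoAct (EC.adjoin_range_rho' (C.lift H))
      (C.cont H) (C.lift H) (fun a h => TopCtx.isUnit_of_pi0 H h) hNn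
      (fun σ hσ => C.det_inertia H Nat.prime_two h2p hA hσ) hφ
      (by rw [C.det_frob H Nat.prime_two h2p hA hφ, Nat.cast_ofNat]) P ε hε hP
  -- the three conditions on `Y × 0`
  have hin : ∀ Y : Submodule R ↥X, In2 (rbarB b) P ε Y →
      (∀ g : GQ, ∀ x ∈ subVJ (rEB B) πE ρ Φ Y, g • x ∈ subVJ (rEB B) πE ρ Φ Y) ∧
      (¬ Ram (rbarB b) 2 → 2 ∉ P →
        LocUr 2 (subVJ (rEB B) πE ρ Φ Y : Set (VJ X (rEB B) πE ρ Φ))) ∧
      (Ram (rbarB b) 2 ∨ 2 ∈ P →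
        LocUnip 2 (subVJ (rEB B) πE ρ Φ Y : Set (VJ X (rEB B) πE ρ Φ))) ∧
      (2 ∈ P → LocSt 2 ε (subVJ (rEB B) πE ρ Φ Y : Set (VJ X (rEB B) πE ρ Φ))) := by
    intro Y hY
    refine ⟨smul_mem_subVJ H hY.gal, fun h1 h2 => ?_, fun h => ?_, fun h => ?_⟩
    · exact locUr_subVJ H Y hY.gal (YS := {x : JZero N | ∃ y ∈ Y, (y : JZero N) = x})
        (fun y hy => ⟨y, hy, rfl⟩) (hY.ur h1 h2)
    · exact locUnip_subVJ' H Y hY.gal (hY.unip h)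
    · exact locSt_subVJ H Y hY.gal (YS := {x : JZero N | ∃ y ∈ Y, (y : JZero N) = x})
        (fun y hy => ⟨y, hy, rfl⟩) (hY.st h)
  refine ⟨k2, u, dl, β2, dz, P2, ⟨hpk.k2_le, hpk.pi0_u, hdl, haux, ?_, ?_, ?_, ?_, ?_, ?_, ?_⟩, hk⟩
  · intro h1 h2 β' hβ G' hG'
    exact locUr_mono (locUr_map (ofVJ X (rEB B) πE ρ Φ) (ofVJ_gal H) (hpk.out_ur h1 h2 β' hβ))
      (subset_image_range hG')
  · intro h β' hβ G' hG'
    exact locUnip_mono (locUnip_map (ofVJ X (rEB B) πE ρ Φ) (ofVJ_gal H) (hpk.out_unip h β' hβ))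
      (subset_image_range hG')
  · intro h β' hβ G' hG'
    exact locSt_mono (locSt_map (ofVJ X (rEB B) πE ρ Φ) (ofVJ_gal H) (hpk.out_st h β' hβ))
      (subset_image_range hG')
  · intro Y hY x hx hu
    obtain ⟨g1, g2, g3, g4⟩ := hin Y hY
    have h := hpk.val (subVJ (rEB B) πE ρ Φ Y) g1 g2 g3 g4 (inlVJ (rEB B) πE ρ Φ x)
      (inlVJ_mem hx) (fun j => Prod.ext (hu j) (smul_zero _))
    exact congrArg Prod.fst h
  · intro Y hY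
    obtain ⟨g1, g2, g3, g4⟩ := hin Y hY
    have h := hpol (subVJ (rEB B) πE ρ Φ Y) g1 g2 g3 g4
    rwa [annihilator_subVJ] at h
  · intro hk1
    obtain ⟨g1, g2, g3, g4⟩ := hin ⊥ ⟨fun g y hy y' hy' => by
        rw [Submodule.mem_bot] at hy ⊢
        rw [hy] at hy'
        exact Subtype.ext (by rw [hy']; exact smul_zero g),
      fun _ _ A _ τ _ x hx => by
        obtain ⟨y, hy, rfl⟩ := hx
        rw [(Submodule.mem_bot R).1 hy]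
        exact smul_zero τ,
      fun _ A _ τ _ τ' _ x hx => by
        obtain ⟨y, hy, rfl⟩ := hx
        rw [(Submodule.mem_bot R).1 hy]
        simp,
      fun _ A _ σ _ τ _ x hx => by
        obtain ⟨y, hy, rfl⟩ := hx
        rw [(Submodule.mem_bot R).1 hy]
        simp⟩
    rcases hpk.gen (subVJ (rEB B) πE ρ Φ ⊥) g1 g2 g3 g4 with h | h
    · exact absurd (h.1.symm.trans hk1) (by norm_num)
    · exact h.2.1
  · intro hk1 Y hY I hI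
    obtain ⟨g1, g2, g3, g4⟩ := hin Y hY
    rcases hpk.gen (subVJ (rEB B) πE ρ Φ Y) g1 g2 g3 g4 with h | h
    · exact absurd (h.1.symm.trans hk1) (by norm_num)
    · have := h.2.2 I hI
      rwa [annihilator_subVJ] at this

end Top

end Fermat.Agent.ML.At2.Top2
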