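import Fermat.Agent.ML.Rbar.Hyp
import Fermat.Agent.ML.Low.Main.NonEis

/-!
# ML / At2 / R8 : the auxiliary prime `r ≡ 2 mod 3` with `θ r ≢ 0 mod 3`   (input of (E2), [CAR2], [INV4])

`MCtx.exists_prime_r8` : for `p = 3` and every finite set `S` there is a prime `r ∉ S`, `r ≡ 2 mod 3`, `3 ∤ θ r`
(`rbar0 (Frob_r)` has order `8`).

* `exists_det_neg_one_trace_ne_zero` : there is `g` with `det rbar0 g = -1`, `tr rbar0 g ≠ 0`; otherwise `rbar0` restricted to
  `H = ker (χ mod 3)` (index `2`) has a stable line over the algebraic closure, against `MCtx.irr2`.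
* `of_pow` : `X ^ n = Y`, `det Y = -1`, `tr Y ≠ 0` ⟹ `det X = -1`, `tr X ≠ 0`  (over `ZMod 3`).
-/

set_option autoImplicit false
set_option linter.style.haveILetI false

noncomputable section

namespace Fermat.Agent.ML.At2

open Fermat.Agent.RIB Fermat.Agent.S56
open Fermat.Agent.GAL Fermat.Agent.GAL.PC

local notation "Qbar" => AlgebraicClosure ℚ
local notation "GQ" => (AlgebraicClosure ℚ ≃ₐ[ℚ] AlgebraicClosure ℚ)
local notation "M₂" => Matrix (Fin 2) (Fin 2)

/-- Cayley-Hamilton for `2 × 2` matrices. -/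
theorem r8_cayley {R : Type*} [CommRing R] (X : M₂ R) :
    X * X = X.trace • X - X.det • (1 : M₂ R) := by
  ext i j
  fin_cases i <;> fin_cases j <;>
    simp [Matrix.mul_apply, Fin.sum_univ_two, Matrix.trace_fin_two, Matrix.det_fin_two] <;> ring

/-- an involution: odd powers. -/
theorem r8_pow_odd {R : Type*} [CommRing R] (X : M₂ R) (h : X * X = 1) (k : ℕ) :
    X ^ (2 * k + 1) = X := by
  rw [pow_succ, pow_mul, pow_two, h, one_pow, one_mul]

/-- `X ^ n = Y`, `det Y = -1`, `tr Y ≠ 0` ⟹ `det X = -1`, `tr X ≠ 0`. -/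
theorem r8_of_pow (X Y : M₂ (ZMod 3)) (n : ℕ) (h : X ^ n = Y) (hd : Y.det = -1)
    (ht : Y.trace ≠ 0) : X.det = -1 ∧ X.trace ≠ 0 := by
  have hdn : X.det ^ n = -1 := by rw [← Matrix.det_pow, h, hd]
  have hcases : ∀ x : ZMod 3, x = 0 ∨ x = 1 ∨ x = -1 := by decide
  have hne : (1 : ZMod 3) ≠ -1 := by decide
  have h0 : (0 : ZMod 3) ≠ -1 := by decide
  have hn0 : n ≠ 0 := by
    rintro rfl
    rw [pow_zero] at hdn
    exact hne hdn
  have hdet : X.det = -1 := by
    rcases hcases X.det with h1 | h1 | h1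
    · rw [h1, zero_pow hn0] at hdn
      exact absurd hdn h0
    · rw [h1, one_pow] at hdn
      exact absurd hdn hne
    · exact h1
  refine ⟨hdet, fun htr => ht ?_⟩
  have hodd : Odd n := by
    rcases Nat.even_or_odd n with he | ho
    · rw [hdet, he.neg_one_pow] at hdn
      exact absurd hdn hne
    · exact ho
  obtain ⟨k, rfl⟩ := hodd
  have hXX : X * X = 1 := by
    rw [r8_cayley, htr, hdet, zero_smul, zero_sub, neg_smul, one_smul, neg_neg]
  rw [r8_pow_odd X hXX] at h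
  rw [← h, htr]

theorem r8_units_cases : ∀ u : (ZMod 3)ˣ, u = 1 ∨ u = -1 := by decide

theorem r8_card_units : Fintype.card (ZMod 3)ˣ = 2 := by decide

theorem r8_neg_one : (-1 : ZMod 3) = ((2 : ℕ) : ZMod 3) := by decide

variable {T : Finset ℕ} {θ : ℕ → ℤ}

section

variable [Fact (Nat.Prime 3)] {rbar0 : GQ →* M₂ (ZMod 3)}

/-- the kernel of the cyclotomic character modulo `3`. -/
def r8H : Subgroup GQ := (ExtCitation.cycloChar 3).ker

theorem r8H_index : (r8H).index = 2 := by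
  rw [r8H, Subgroup.index_ker]
  have hsurj : Function.Surjective (ExtCitation.cycloChar 3) := by
    intro u
    rcases r8_units_cases u with rfl | rfl
    · exact ⟨1, map_one _⟩
    · exact ⟨complexConjugation, Units.ext (cycloChar_complexConjugation 3)⟩
  rw [MonoidHom.range_eq_top.2 hsurj, Nat.card_congr Subgroup.topEquiv.toEquiv]
  rw [Nat.card_eq_fintype_card]
  exact r8_card_units

/-- there is `g` with `det rbar0 g = -1`, `tr rbar0 g ≠ 0`. -/
theorem exists_det_neg_one_trace_ne_zero (C : MCtx 3 T θ rbar0) :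
    ∃ g : GQ, (rbar0 g).det = -1 ∧ (rbar0 g).trace ≠ 0 := by
  by_contra hcon
  push Not at hcon
  obtain ⟨σ₀, τ₀, u, -, hnf⟩ := C.nf
  have hdc : (rbar0 complexConjugation).det = -1 := by
    rw [C.det]
    exact cycloChar_complexConjugation 3
  have hdetH : ∀ h ∈ r8H, (rbar0 h).det = 1 := by
    intro h hh
    rw [C.det, (MonoidHom.mem_ker).1 hh, Units.val_one]
  -- equal diagonal entries on `H`
  have had : ∀ h ∈ r8H, (rbar0 h) 0 0 = (rbar0 h) 1 1 := by
    intro h hh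
    have h1 : (rbar0 h) 0 0 =
        TW.TR.aF (fun g => (rbar0 g).trace) (2 : ZMod 3)⁻¹ complexConjugation h := by
      conv_lhs => rw [hnf h]
      rfl
    have h2 : (rbar0 h) 1 1 =
        TW.TR.dF (fun g => (rbar0 g).trace) (2 : ZMod 3)⁻¹ complexConjugation h := by
      conv_lhs => rw [hnf h]
      rfl
    have h3 : (rbar0 (complexConjugation * h)).trace = 0 := by
      refine hcon _ ?_
      rw [map_mul, Matrix.det_mul, hdc, hdetH h hh, mul_one]
    rw [h1, h2, TW.TR.aF_eq, TW.TR.dF_eq, h3, add_zero, sub_zero]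
  have hbc : ∀ h ∈ r8H, ∀ h' ∈ r8H, (rbar0 h) 0 1 * (rbar0 h') 1 0 = (rbar0 h) 1 0 * (rbar0 h') 0 1 := by
    intro h hh h' hh'
    have h1 := had (h * h') (r8H.mul_mem hh hh')
    rw [map_mul, Matrix.mul_apply, Matrix.mul_apply, Fin.sum_univ_two, Fin.sum_univ_two,
      had h hh, had h' hh'] at h1
    linear_combination h1
  set K := AlgebraicClosure (kM 3) with hK
  set ι : ZMod 3 →+* K := (algebraMap (kM 3) K).comp (algebraMap (ZMod 3) (kM 3)) with hι
  have hmap : ∀ g : GQ, (mapK (kM 3) rbar0 g).map (algebraMap (kM 3) K) = (rbar0 g).map ι :=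
    fun g => mapK_map_closure (kM 3) g
  have hirr := C.irr2 (Or.inl rfl) r8H r8H_index
  by_cases hb : ∃ h₀ ∈ r8H, (rbar0 h₀) 0 1 ≠ 0
  · obtain ⟨h₀, hh₀, hb₀⟩ := hb
    obtain ⟨κ, hκ⟩ := IsAlgClosed.exists_pow_nat_eq (ι ((rbar0 h₀) 1 0) / ι ((rbar0 h₀) 0 1))
      (n := 2) (by norm_num)
    have hιb : ι ((rbar0 h₀) 0 1) ≠ 0 := (map_ne_zero ι).2 hb₀
    obtain ⟨σ, hσ, hne⟩ := hirr ![1, κ] (by
      intro h
      have := congrFun h 0
      simp at this)
    refine hne (ι ((rbar0 σ) 0 0) + ι ((rbar0 σ) 0 1) * κ) ?_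
    rw [hmap]
    have e1 : ι ((rbar0 σ) 1 0) = ι ((rbar0 σ) 0 1) * κ ^ 2 := by
      rw [hκ]
      have := congrArg ι (hbc σ hσ h₀ hh₀)
      rw [map_mul, map_mul] at this
      rw [← mul_div_assoc, eq_div_iff hιb]
      exact this.symm
    funext i
    fin_cases i
    · simp [Matrix.mulVec, dotProduct, Fin.sum_univ_two]
    · simp only [Matrix.mulVec, dotProduct, Fin.sum_univ_two, Matrix.map_apply]
      simp
      rw [e1, ← had σ hσ]
      ring
  · push Not at hb
    obtain ⟨σ, hσ, hne⟩ := hirr ![0, 1] (by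
      intro h
      have := congrFun h 1
      simp at this)
    refine hne (ι ((rbar0 σ) 1 1)) ?_
    rw [hmap]
    funext i
    fin_cases i
    · simp [Matrix.mulVec, dotProduct, Fin.sum_univ_two, hb σ hσ]
    · simp [Matrix.mulVec, dotProduct, Fin.sum_univ_two]

/-- **the prime `r`** : `r ∉ S`, `r ≡ 2 mod 3`, `3 ∤ θ r`. -/
theorem _root_.Fermat.Agent.ML.MCtx.exists_prime_r8 (C : MCtx 3 T θ rbar0) (S : Finset ℕ) :
    ∃ r : Nat.Primes, (r : ℕ) ∉ S ∧ (r : ℕ) % 3 = 2 ∧ ¬ (3 : ℤ) ∣ θ r := by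
  classical
  obtain ⟨g, hgd, hgt⟩ := exists_det_neg_one_trace_ne_zero C
  obtain ⟨F, hF, h₁⟩ := C.cont
  obtain ⟨r, A, τ, n, hr, hrS, hA, hτ, hg⟩ := genCheb F hF g (S ∪ T)
  have hrS' : r ∉ S := fun h => hrS (Finset.mem_union_left _ h)
  have hrT : r ∉ T := fun h => hrS (Finset.mem_union_right _ h)
  set η : GQ := (τ ^ n)⁻¹ * g with hη
  have hgη : g = τ ^ n * η := by rw [hη, mul_inv_cancel_left]
  have hη1 : rbar0 η = 1 := h₁ η fun y hy => by
    rw [hη, AlgEquiv.mul_apply, hg y hy]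
    exact (τ ^ n).symm_apply_apply y
  have hpow : rbar0 τ ^ n = rbar0 g := by
    rw [hgη, map_mul, hη1, mul_one, map_pow]
  obtain ⟨hd, ht⟩ := r8_of_pow _ _ n hpow hgd hgt
  obtain ⟨ht', hd'⟩ := C.frob r hr hrT A hA τ hτ
  refine ⟨⟨r, hr⟩, hrS', ?_, ?_⟩
  · have h2 : ((r : ℕ) : ZMod 3) = ((2 : ℕ) : ZMod 3) := by
      rw [← hd', hd]
      exact r8_neg_one
    have h3 := (ZMod.natCast_eq_natCast_iff' r 2 3).1 h2
    simpa using h3
  · intro hdvd
    apply ht
    rw [ht']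
    exact (ZMod.intCast_zmod_eq_zero_iff_dvd _ 3).2 (by exact_mod_cast hdvd)

end

end Fermat.Agent.ML.At2
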