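import Fermat.Agent.ML.At2.Asm
import Fermat.Agent.ML.Low.Hard2.MP
import Fermat.Agent.ML.Low.Blocks

/-!
# ML / AT-2 : `Lower2Stmt` from (KEY) at the non rigid level `2M`

* `KeyNRStmt` : (KEY) at the level `M * 2`, `M` odd squarefree, in the consumer form of `RIB.Key.key_final`
  (`= key_final_nr` of (E1) + (E2)); the primes of `M * 2 * 3 * p` are in `T`;
* `lower2Stmt_of : KeyNRStmt → Lower2Stmt`  (Mazur's principle : `2 ≢ 1 mod p`);
* `type2Stmt_of_key : KeyNRStmt → Type2Stmt`.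
-/

set_option autoImplicit false
set_option linter.unusedSectionVars false

noncomputable section

open AlgebraicCurve ModularCurve

namespace Fermat.Agent.ML.At2

open Fermat.Agent.RIB Fermat.Agent.ML.Low Fermat.Agent.ML.ESide ExtCitation

local notation "Qbar" => AlgebraicClosure ℚ
local notation "GQ" => (AlgebraicClosure ℚ ≃ₐ[ℚ] AlgebraicClosure ℚ)
local notation "M₂" => Matrix (Fin 2) (Fin 2)

/-- **(KEY) at the non rigid level `2M`**, consumer form. -/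
def KeyNRStmt : Prop :=
  ∀ (p : ℕ) [Fact p.Prime], (p = 3 ∨ p = 5) → ∀ (T : Finset ℕ) (θ : ℕ → ℤ)
    (rbar0 : GQ →* M₂ (ZMod p)), MCtx p T θ rbar0 → ¬ Ram rbar0 2 →
    ∀ (M : ℕ) [NeZero M], Odd M → Squarefree M →
    (∀ r : ℕ, r.Prime → r ∣ M * 2 * 3 * p → r ∈ T) → WS M p (↑T : Set ℕ) θ = ⊥ →
    ∀ σ : GQ, (primeLocalPlace ⟨2, Nat.prime_two⟩).IsFrobeniusAt σ 2 →
      ∃ w : JZero (M * 2) →+ JZero (M * 2), (∀ x, w (w x) = x) ∧
        (∀ (g : GQ) x, w (g • x) = g • w x) ∧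
        (∀ x ∈ thetaPart (M * 2) p (↑T : Set ℕ) θ, w x ∈ thetaPart (M * 2) p (↑T : Set ℕ) θ) ∧
        ∀ x ∈ thetaPart (M * 2) p (↑T : Set ℕ) θ,
          (∀ τ ∈ (primeLocalPlace ⟨2, Nat.prime_two⟩).inertiaSubgroupIn ℚ, τ • x = x) →
            σ • x + 2 • w x = 0

/-- **Mazur's principle at `2`** from (KEY). -/
theorem lower2Stmt_of (hK : KeyNRStmt) : Lower2Stmt := by
  intro p _ hp35 T θ rbar0 C hnr M _ hodd hsq hlev h0
  by_contra hW
  have hp : p.Prime := Fact.out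
  -- enlarge `T`
  set T' : Finset ℕ := insert 3 T with hT'
  have hTT : T ⊆ T' := Finset.subset_insert 3 T
  have C' : MCtx p T' θ rbar0 := C.mono hTT
  have hlevM : ∀ r : ℕ, r.Prime → r ∣ M * p → r ∈ T := fun r hr hd =>
    hlev r hr (hd.trans ⟨2, by ring⟩)
  have h0' : WS M p (↑T' : Set ℕ) θ = ⊥ := by rw [C.WS_eq hTT hlevM]; exact h0
  have hW' : WS (M * 2) p (↑T' : Set ℕ) θ ≠ ⊥ := by rw [C.WS_eq hTT hlev]; exact hW
  have hlev' : ∀ r : ℕ, r.Prime → r ∣ M * 2 * 3 * p → r ∈ T' := by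
    intro r hr hd
    rw [show M * 2 * 3 * p = 3 * (M * 2 * p) by ring] at hd
    rcases (Nat.Prime.dvd_mul hr).1 hd with h | h
    · rw [(Nat.prime_dvd_prime_iff_eq hr Nat.prime_three).1 h]
      exact Finset.mem_insert_self 3 T
    · exact hTT (hlev r hr h)
  set v : Nat.Primes := ⟨2, Nat.prime_two⟩ with hv
  have hA : (primeLocalPlace v).LiesOverPrime 2 := S56.liesOverPrime_primeLocalPlace v
  obtain ⟨φ, hφ⟩ := S54.exists_isFrobeniusAt_of_liesOverPrime Nat.prime_two (primeLocalPlace v) hA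
  obtain ⟨w, hww, hwg, hwθ, hk⟩ := hK p hp35 T' θ rbar0 C' hnr M hodd hsq hlev' h0' φ hφ
  obtain ⟨R, _, _, _, _, _, π0, ρ, Φ, H⟩ := rhoOut C' T' (Finset.Subset.refl _) (M * 2)
    (fun r hr hd => hTT (hlev r hr hd)) hW'
  have h2p : (2 : ℕ) ≠ p := fun h => C.hp2 h.symm
  have hdet : (rbar0 φ).det = ((2 : ℕ) : ZMod p) := by
    rw [C.det]
    exact GAL.cycloChar_of_isFrobeniusAt Nat.prime_two h2p hA hφ
  obtain ⟨c, -, -, h21, -⟩ := hard_mp C' H Nat.prime_two h2p (primeLocalPlace v) φ hdet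
    (fun τ hτ => unram_of_not_ram hnr _ hA τ hτ) w hww hwg hwθ hk
  have h1 : ((1 : ℕ) : ZMod p) = 0 := by
    have e : ((2 : ℕ) : ZMod p) = ((1 : ℕ) : ZMod p) + 1 := by push_cast; norm_num
    rw [e] at h21
    exact add_eq_right.1 h21
  rw [ZMod.natCast_eq_zero_iff] at h1
  exact hp.one_lt.ne' (Nat.dvd_one.1 h1)

/-- **AT-2** from (KEY) at the non rigid level. -/
theorem type2Stmt_of_key (hK : KeyNRStmt) : Type2Stmt := type2Stmt_of (lower2Stmt_of hK)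

end Fermat.Agent.ML.At2
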