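import Fermat.Agent.ML.Rbar.Hyp
import Fermat.Agent.Cheb.Final

/-!
# ML / At2 / PrimeR : a prime `r ≡ 2 mod 3` with `θ r ≢ 0 mod 3`

Input of the "elliptic defect" step of (E2) / [CAR2] / [INV4] (`T_r`, `r ≡ 2 mod 3`, kills the defect on the elliptic elements of order `3`,
and is invertible on the `θ`-part as soon as `3 ∤ θ r`).

* `comm_of_trace_eq_zero` (abstract, `2 × 2` matrices over a field, `2 ≠ 0`) : `X² = 1`, `tr X = 0`, `tr (X A) = tr (X B) = 0`,
  `tr (X A B) = tr (X B A)`  ⟹  `A B = B A`.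
* `exists_common_eigvec_two` : a commuting family of `2 × 2` matrices over an algebraically closed field has a common eigenvector.
* `MCtx.exists_det_neg_one_trace_ne_zero` : `p = 3 ∨ p = 5` : some `g` has `det rbar0 g = -1`, `tr rbar0 g ≠ 0`  (from `MCtx.irr2`).
* `MCtx.exists_prime_two_mod_three` : `p = 3` : for every finite set `B` there is a prime `r ∉ T ∪ B`, `r % 3 = 2`, `¬ 3 ∣ θ r`.
-/

set_option autoImplicit false

noncomputable section

open ExtCitation

namespace Fermat.Agent.ML

open Fermat.Agent.RIB Fermat.Agent.S56 Fermat.Agent.ML.Irr2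

local notation "Qbar" => AlgebraicClosure ℚ
local notation "GQ" => (AlgebraicClosure ℚ ≃ₐ[ℚ] AlgebraicClosure ℚ)
local notation "M₂" => Matrix (Fin 2) (Fin 2)

section Abs

variable {K : Type} [Field K]

/-- two matrices orthogonal to an involution of trace `0`, whose commutator is also orthogonal to it, commute. -/
theorem comm_of_trace_eq_zero (h2 : (2 : K) ≠ 0) (X A B : M₂ K) (hX0 : X.trace = 0)
    (hXX : X * X = 1) (hA : (X * A).trace = 0) (hB : (X * B).trace = 0)
    (hAB : (X * (A * B)).trace = (X * (B * A)).trace) : A * B = B * A := by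
  have hx1 : X 1 1 = -X 0 0 := by
    rw [Matrix.trace_fin_two] at hX0
    linear_combination hX0
  have hn : X 0 0 * X 0 0 + X 0 1 * X 1 0 = 1 := by
    have := congrFun (congrFun hXX 0) 0
    rw [Matrix.mul_apply, Fin.sum_univ_two] at this
    simpa using this
  simp only [Matrix.trace_fin_two, Matrix.mul_apply, Fin.sum_univ_two, hx1] at hA hB hAB
  set x := X 0 0
  set y := X 0 1
  set z := X 1 0
  set a := A 0 0
  set b := A 0 1
  set c := A 1 0
  set d := A 1 1
  set a' := B 0 0
  set b' := B 0 1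
  set c' := B 1 0
  set d' := B 1 1
  set e00 := b * c' - b' * c with he00
  set e01 := (a - d) * b' - (a' - d') * b with he01
  set e10 := c * (a' - d') - c' * (a - d) with he10
  have r1 : z * e00 = x * e10 := by
    rw [he00, he10]; linear_combination c' * hA - c * hB
  have r2 : y * e00 = x * e01 := by
    rw [he00, he01]; linear_combination b * hB - b' * hA
  have r3 : y * e10 = z * e01 := by
    rw [he10, he01]; linear_combination (a' - d') * hA - (a - d) * hB
  have r4 : 2 * (x * e00 + y * e10) = 0 := by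
    have : 2 * x * e00 + y * e10 + z * e01 = 0 := by
      rw [he00, he01, he10]; linear_combination hAB
    linear_combination this + r3
  have r5 : x * e00 + y * e10 = 0 := (mul_eq_zero.1 r4).resolve_left h2
  have z00 : e00 = 0 := by
    linear_combination (-e00) * hn + x * r5 + y * r1
  have z10 : e10 = 0 := by
    rw [z00, mul_zero] at r1 r5
    rw [zero_add] at r5
    linear_combination (-e10) * hn - x * r1 + z * r5
  have z01 : e01 = 0 := by
    rw [z00, mul_zero] at r2
    rw [z10, mul_zero] at r3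
    linear_combination (-e01) * hn - x * r2 - y * r3
  ext i j
  fin_cases i <;> fin_cases j
  · simp only [Fin.zero_eta, Matrix.mul_apply, Fin.sum_univ_two]
    linear_combination z00
  · simp only [Fin.zero_eta, Fin.mk_one, Matrix.mul_apply, Fin.sum_univ_two]
    linear_combination z01
  · simp only [Fin.zero_eta, Fin.mk_one, Matrix.mul_apply, Fin.sum_univ_two]
    linear_combination z10
  · simp only [Fin.mk_one, Matrix.mul_apply, Fin.sum_univ_two]
    linear_combination -z00

/-- a commuting family of `2 × 2` matrices over an algebraically closed field has a common eigenvector. -/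
theorem exists_common_eigvec_two [IsAlgClosed K] (S : Set (M₂ K))
    (hcomm : ∀ A ∈ S, ∀ B ∈ S, A * B = B * A) :
    ∃ v : Fin 2 → K, v ≠ 0 ∧ ∀ A ∈ S, ∃ c : K, A.mulVec v = c • v := by
  by_cases hsc : ∀ A ∈ S, ∃ c : K, A = c • (1 : M₂ K)
  · refine ⟨![1, 0], fun h => one_ne_zero (congrFun h 0), fun A hA => ?_⟩
    obtain ⟨c, rfl⟩ := hsc A hA
    exact ⟨c, by rw [Matrix.smul_mulVec, Matrix.one_mulVec]⟩
  · push Not at hsc
    obtain ⟨A₀, hA₀, hns⟩ := hsc
    -- an eigenvector of `A₀`
    obtain ⟨lam, hlam⟩ := Module.End.exists_eigenvalue (Matrix.toLin' A₀)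
    obtain ⟨v, hv⟩ := hlam.exists_hasEigenvector
    have hv0 : v ≠ 0 := hv.2
    have hAv : A₀.mulVec v = lam • v := by
      have := hv.apply_eq_smul
      rwa [Matrix.toLin'_apply] at this
    refine ⟨v, hv0, fun B hB => ?_⟩
    set w := B.mulVec v with hw
    have hAw : A₀.mulVec w = lam • w := by
      rw [hw, Matrix.mulVec_mulVec, hcomm A₀ hA₀ B hB, ← Matrix.mulVec_mulVec, hAv,
        Matrix.mulVec_smul]
    by_cases hdet : (colMat v w).det = 0
    · obtain ⟨c, hc⟩ := exists_smul_of_det_eq_zero hv0 hdet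
      exact ⟨c, hc⟩
    · exfalso
      apply hns lam
      have hP : IsUnit (colMat v w).det := isUnit_iff_ne_zero.2 hdet
      have key : A₀ * colMat v w = (lam • (1 : M₂ K)) * colMat v w := by
        have e0 := congrFun hAv 0
        have e1 := congrFun hAv 1
        have f0 := congrFun hAw 0
        have f1 := congrFun hAw 1
        simp only [Matrix.mulVec, dotProduct, Fin.sum_univ_two, Pi.smul_apply, smul_eq_mul]
          at e0 e1 f0 f1
        ext i j
        fin_cases i <;> fin_cases j <;>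
          simp [colMat, Matrix.mul_apply, Fin.sum_univ_two, Matrix.smul_apply, Matrix.one_apply]
        · exact e0
        · exact f0
        · exact e1
        · exact f1
      have := congrArg (fun Z => Z * (colMat v w)⁻¹) key
      simpa [mul_assoc, Matrix.mul_nonsing_inv _ hP] using this

end Abs

variable {p : ℕ} [Fact p.Prime] {T : Finset ℕ} {θ : ℕ → ℤ} {rbar0 : GQ →* M₂ (ZMod p)}

/-- the kernel of the cyclotomic character mod `3` has index `2`. -/
theorem index_ker_cycloChar_three [Fact (Nat.Prime 3)] : (cycloChar 3).ker.index = 2 := by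
  rw [Subgroup.index_ker]
  have hs : Function.Surjective (cycloChar 3) := fun u => by
    obtain ⟨g, hg⟩ := Fermat.Agent.CFT.Recip.cycloChar_surjective 3 u
    exact ⟨g, hg⟩
  rw [MonoidHom.range_eq_top.2 hs]
  rw [Nat.card_congr (Subgroup.topEquiv (G := (ZMod 3)ˣ)).toEquiv, Nat.card_eq_fintype_card,
    ZMod.card_units_eq_totient]
  decide

/-- some element has determinant `-1` and nonzero trace (`rbar0` is not induced from `ℚ(√-3)`). -/
theorem MCtx.exists_det_neg_one_trace_ne_zero (C : MCtx p T θ rbar0) (hp3 : p = 3) :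
    ∃ g : GQ, (rbar0 g).det = -1 ∧ (rbar0 g).trace ≠ 0 := by
  subst hp3
  by_contra hcon
  push Not at hcon
  set H : Subgroup GQ := (cycloChar 3).ker with hH
  have hirr := C.irr2 (Or.inl rfl) H index_ker_cycloChar_three
  have hdetH : ∀ h ∈ H, (rbar0 h).det = 1 := by
    intro h hh
    rw [C.det, MonoidHom.mem_ker.1 hh, Units.val_one]
  have htr : ∀ h ∈ H, (rbar0 complexConjugation * rbar0 h).trace = 0 := by
    intro h hh
    rw [← map_mul]
    apply hcon
    rw [map_mul, Matrix.det_mul, C.det_conj, hdetH h hh, mul_one]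
  have hcomm0 : ∀ h ∈ H, ∀ h' ∈ H, rbar0 h * rbar0 h' = rbar0 h' * rbar0 h := by
    intro h hh h' hh'
    apply comm_of_trace_eq_zero (two_ne_zero_zmod C.hp2) (rbar0 complexConjugation) _ _
      (hcon _ C.det_conj) C.conj_mul_self (htr h hh) (htr h' hh')
    rw [← map_mul rbar0 h h', ← map_mul rbar0 h' h, htr _ (H.mul_mem hh hh'),
      htr _ (H.mul_mem hh' hh)]
  obtain ⟨v, hv0, hv⟩ := exists_common_eigvec_two
    {Z : M₂ (AlgebraicClosure (kM 3)) | ∃ h ∈ H, Z = (rbar0 h).map
      ((algebraMap (kM 3) (AlgebraicClosure (kM 3))).comp (algebraMap (ZMod 3) (kM 3)))} (by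
    rintro _ ⟨h, hh, rfl⟩ _ ⟨h', hh', rfl⟩
    rw [← Matrix.map_mul, ← Matrix.map_mul, hcomm0 h hh h' hh'])
  obtain ⟨σ, hσ, hne⟩ := hirr v hv0
  obtain ⟨c', hc'⟩ := hv _ ⟨σ, hσ, rfl⟩
  apply hne c'
  rw [mapK_map_closure]
  exact hc'

theorem zmod_three_cases (d : ZMod 3) : d = 0 ∨ d = 1 ∨ d = -1 := by
  revert d; decide

theorem zmod_three_one_ne : (1 : ZMod 3) ≠ -1 := by decide

theorem zmod_three_zero_ne : (0 : ZMod 3) ≠ -1 := by decide

theorem zmod_three_neg_one : (-1 : ZMod 3) = ((2 : ℕ) : ZMod 3) := by decide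

/-- Cayley-Hamilton for trace `0`, determinant `-1`. -/
theorem mul_self_eq_one_of_trace_det {R : Type*} [CommRing R] (Y : M₂ R) (h0 : Y.trace = 0)
    (h1 : Y.det = -1) : Y * Y = 1 := by
  rw [Matrix.trace_fin_two] at h0
  rw [Matrix.det_fin_two] at h1
  have h11 : Y 1 1 = -Y 0 0 := by linear_combination h0
  rw [h11] at h1
  ext i j
  fin_cases i <;> fin_cases j <;>
    simp only [Fin.zero_eta, Fin.mk_one, Matrix.mul_apply, Fin.sum_univ_two, h11,
      Matrix.one_apply_eq, Matrix.one_apply_ne, ne_eq, zero_ne_one, one_ne_zero,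
      not_false_eq_true]
  · linear_combination -h1
  · ring
  · ring
  · linear_combination -h1

/-- **a prime `r ≡ 2 mod 3`, outside any finite set, with `θ r ≢ 0 mod 3`.** -/
theorem MCtx.exists_prime_two_mod_three (C : MCtx p T θ rbar0) (hp3 : p = 3) (B : Finset ℕ) :
    ∃ r : ℕ, r.Prime ∧ r ∉ T ∧ r ∉ B ∧ r % 3 = 2 ∧ ¬ (3 : ℤ) ∣ θ r := by
  obtain ⟨g, hg1, hg2⟩ := C.exists_det_neg_one_trace_ne_zero hp3
  subst hp3
  obtain ⟨L, hL, hLr⟩ := C.cont
  obtain ⟨r, A, τ, a, -, hr, hrT, hA, hτ, -, h1, -⟩ :=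
    Fermat.Agent.Cheb.preludeSpec L hL g (T ∪ B)
  rw [Finset.mem_union, not_or] at hrT
  have e : rbar0 τ ^ a = rbar0 g := by
    have h2 : rbar0 (g⁻¹ * τ ^ a) = 1 := hLr _ fun x hx => by
      rw [AlgEquiv.mul_apply, h1 x hx]
      exact AlgEquiv.symm_apply_apply g x
    calc rbar0 τ ^ a = rbar0 (g * (g⁻¹ * τ ^ a)) := by rw [mul_inv_cancel_left, map_pow]
      _ = rbar0 g := by rw [map_mul, h2, mul_one]
  obtain ⟨e1, e2⟩ := C.frob r hr hrT.1 A hA τ hτ
  have hd : (rbar0 τ).det = -1 := by
    have h3 : (rbar0 τ).det ^ a = -1 := by rw [← Matrix.det_pow, e, hg1]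
    rcases zmod_three_cases (rbar0 τ).det with h | h | h
    · exfalso
      rw [h] at h3
      rcases Nat.eq_zero_or_pos a with rfl | ha
      · rw [pow_zero] at h3; exact zmod_three_one_ne h3
      · rw [zero_pow ha.ne'] at h3; exact zmod_three_zero_ne h3
    · exfalso
      rw [h, one_pow] at h3; exact zmod_three_one_ne h3
    · exact h
  have ht : (rbar0 τ).trace ≠ 0 := by
    intro h0
    have h5 : rbar0 τ ^ 2 = 1 := by
      rw [pow_two]; exact mul_self_eq_one_of_trace_det _ h0 hd
    rw [pow_eq_pow_mod a h5] at e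
    rcases Nat.mod_two_eq_zero_or_one a with h | h
    · rw [h, pow_zero] at e
      rw [← e, Matrix.det_one] at hg1
      exact zmod_three_one_ne hg1
    · rw [h, pow_one] at e
      exact hg2 (e ▸ h0)
  refine ⟨r, hr, hrT.1, hrT.2, ?_, ?_⟩
  · rw [e2] at hd
    have h6 : ((r : ℕ) : ZMod 3) = ((2 : ℕ) : ZMod 3) := by rw [hd]; exact zmod_three_neg_one
    exact (ZMod.natCast_eq_natCast_iff' r 2 3).1 h6
  · intro hdvd
    apply ht
    rw [e1]
    exact (ZMod.intCast_zmod_eq_zero_iff_dvd (θ r) 3).2 hdvd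

end Fermat.Agent.ML
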